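import Fermat.Agent.TwoComponent.CloseRoot

/-!
# Splitting sections by sides, and compressing approximate roots

Lattice lemmas for torsion data of trivial reduction: splitting a section into a part which is deep
on one side and a part deep on the other, up to a complement, and reducing the poles of approximate
`p`-th roots.
-/

noncomputable section

open AlgebraicCurve Fermat.Agent.Red

namespace Fermat.Agent.TwoComponent

variable {K k F Fk : Type*} [Field K] [Field F] [Algebra K F] [Field k] [Field Fk] [Algebra k Fk]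
variable {A : ValuationSubring K} {π : A →+* k}
variable {S : Type*} [Fintype S]

/-- The error of an approximate `p`-th root after moving it by a multiple of `η`. -/
theorem exists_shift {R : Type*} [CommRing R] {p : ℕ} (hp : p.Prime) {e t g η θ' : R}
    (hg : e * t ^ p - 1 = η ^ p * g) (hpη : (p : R) = -(η ^ (p - 1) * θ' ^ (p - 1))) (x : R) :
    ∃ H : R, e * (t + η * x) ^ p - 1 =
      η ^ p * (g + e * x ^ p - θ' ^ (p - 1) * e * (t ^ (p - 1) * x + η * x ^ 2 * H)) := by
  obtain ⟨H, hH⟩ := exists_add_pow_prime_linear hp t (η * x)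
  refine ⟨H, ?_⟩
  have hη : η ^ (p - 1) * η = η ^ p := by rw [← pow_succ, Nat.sub_add_cancel hp.one_le]
  rw [hH, mul_pow, hpη]
  linear_combination hg - (θ' ^ (p - 1) * e * (t ^ (p - 1) * x + η * x ^ 2 * H)) * hη

namespace TwoRed

variable (T : TwoRed A π F Fk S)

include T in
/-- Either `a` divides `b`, or `b` is strictly shallower. -/
theorem dvd_or_shallower (a b : A) : a ∣ b ∨ ∃ m : A, π m = 0 ∧ a = b * m := by
  rcases eq_or_ne (a : K) 0 with ha | ha
  · right
    exact ⟨0, map_zero _, Subtype.ext (by simp [ha])⟩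
  by_cases h : (b : K) / (a : K) ∈ A
  · exact Or.inl ⟨⟨_, h⟩, Subtype.ext (by show (b : K) = (a : K) * _; field_simp)⟩
  right
  have h' : (a : K) / (b : K) ∈ A := by
    have := (A.mem_or_inv_mem ((b : K) / (a : K))).resolve_left h
    rwa [inv_div] at this
  have hb : (b : K) ≠ 0 := fun h0 => h (by rw [h0, zero_div]; exact A.zero_mem)
  refine ⟨⟨_, h'⟩, ?_, Subtype.ext (by show (a : K) = (b : K) * _; field_simp)⟩
  by_contra hne
  have := inv_mem_of_pi_ne_zero (T.R false).surj_pi hne
  rw [inv_div] at this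
  exact h this

/-- A common divisor in the maximal ideal of finitely many of its elements. -/
theorem exists_common_finset {ι : Type*} (s : Finset ι) (a : ι → A) (ha : ∀ j ∈ s, π (a j) = 0)
    {t : A} (ht : π t = 0) : ∃ c : A, π c = 0 ∧ c ∣ t ∧ ∀ j ∈ s, c ∣ a j := by
  classical
  induction s using Finset.induction_on with
  | empty => exact ⟨t, ht, dvd_rfl, fun j hj => absurd hj (Finset.notMem_empty j)⟩
  | insert j s _ ih =>
    obtain ⟨c, hc, hct, hca⟩ := ih fun l hl => ha l (Finset.mem_insert_of_mem hl)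
    obtain ⟨c', hc', hc'c, hc'a⟩ := exists_common_dvd hc (ha j (Finset.mem_insert_self j s))
    refine ⟨c', hc', hc'c.trans hct, fun l hl => ?_⟩
    rcases Finset.mem_insert.mp hl with rfl | hl
    · exact hc'a
    · exact hc'c.trans (hca l hl)

theorem ne_zero_of_dvd_ne_zero {c t : A} (h : c ∣ t) (ht : t ≠ 0) : c ≠ 0 := by
  rintro rfl
  exact ht (zero_dvd_iff.mp h)

/-- What reduces to zero is divisible by an element of the maximal ideal. -/
theorem exists_dvd_of_red_eq_zero {t : A} (ht : π t = 0) (i : Bool) {v : (T.R i).O}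
    (hv : (T.R i).red v = 0) : ∃ a : A, π a = 0 ∧ (T.R i).ι a ∣ v := by
  rcases eq_or_ne (v : F) 0 with h0 | h0
  · exact ⟨t, ht, ⟨0, by rw [mul_zero]; exact Subtype.ext h0⟩⟩
  obtain ⟨a, w, hw, he⟩ := (T.R i).exists_scale_mem h0
  refine ⟨a, ?_, he ▸ dvd_mul_right _ _⟩
  by_contra hne
  rw [he, map_mul, RedBase.red_ι] at hv
  exact (mul_ne_zero ((map_ne_zero _).mpr hne) hw) hv

/-- Elements of the maximal ideal have all roots there. -/
theorem exists_root_A [IsAlgClosed K] {n : ℕ} (hn : 0 < n) (a : A) (ha : π a = 0) :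
    ∃ r : A, r ^ n = a ∧ π r = 0 := by
  obtain ⟨r, hr⟩ := IsAlgClosed.exists_pow_nat_eq (a : K) hn
  have hrA : r ∈ A := by
    rcases A.mem_or_inv_mem r with h | h
    · exact h
    rcases eq_or_ne r 0 with rfl | h0
    · exact A.zero_mem
    obtain ⟨j, rfl⟩ : ∃ j, n = j + 1 := ⟨n - 1, by omega⟩
    have he : r = r ^ (j + 1) * r⁻¹ ^ j := by rw [inv_pow, pow_succ']; field_simp
    rw [he, hr]
    exact mul_mem a.2 (pow_mem h j)
  have h : (⟨r, hrA⟩ : A) ^ n = a := Subtype.ext (by rw [SubmonoidClass.coe_pow, hr])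
  exact ⟨⟨r, hrA⟩, h, eq_zero_of_pow_eq_zero (n := n) (by rw [← map_pow, h, ha])⟩

/-- `p`-th roots of glued pairs are glued. -/
theorem glued_of_pow_mem {p : ℕ} (hp : p.Prime) (hpk : (p : k) = 0) {n : ℕ} {w : Bool → Fk}
    (h : (fun i => w i ^ p) ∈ T.glued (fun i => (p * n) • T.Gk i) 1) :
    w ∈ T.glued (fun i => n • T.Gk i) 1 := by
  have : Fact p.Prime := ⟨hp⟩
  have : CharP k p := (CharP.charP_iff_prime_eq_zero hp).mpr hpk
  have hp0 : (0 : ℤ) < p := by exact_mod_cast hp.pos
  have hsp : ∀ i, w i ∈ riemannRochSpace (n • T.Gk i) := fun i => by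
    refine mem_riemannRochSpace_iff.mpr fun Q => or_iff_not_imp_left.mpr fun hne => ?_
    have := ((mem_riemannRochSpace_iff.mp (h.1 i)) Q).resolve_left (pow_ne_zero p hne)
    rw [ord_pow, Finsupp.smul_apply, nsmul_eq_mul] at this
    rw [Finsupp.smul_apply, nsmul_eq_mul]
    push_cast at this
    nlinarith
  have hreg : ∀ s i, w i ∈ (T.br s i).toValuationSubring := fun s i =>
    mem_of_space (hsp i) (T.nsmul_Gk_br n s i)
  refine ⟨hsp, hreg, fun s => ?_⟩
  have h3 := h.2.2 s
  rw [Pi.one_apply, one_mul, ev_pow (T.deg_br s false) (hreg s false),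
    ev_pow (T.deg_br s true) (hreg s true)] at h3
  rw [Pi.one_apply, one_mul]
  exact frobenius_inj k p (by rw [frobenius_def, frobenius_def, h3])

namespace TrivialData

variable {T} {m : ℕ} {D : Divisor K F} (d : T.TrivialData m D)

omit d in
/-- A member of a complement of the parts supported on one side whose truncation to the true side
is again in the space vanishes. -/
theorem eq_zero_of_truncation_mem {W C : Submodule k (Bool → Fk)} (hCW : C ≤ W)
    (hdisj : Disjoint (W ⊓ LinearMap.ker (LinearMap.proj true) ⊔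
      W ⊓ LinearMap.ker (LinearMap.proj false)) C)
    {Z : Bool → Fk} (hZC : Z ∈ C) (hcon : (fun i : Bool => if i then Z true else 0) ∈ W) :
    Z = 0 := by
  have hft : Z - (fun i : Bool => if i then Z true else 0) ∈
      W ⊓ LinearMap.ker (LinearMap.proj true) :=
    ⟨sub_mem (hCW hZC) hcon, by
      show (Z - fun i : Bool => if i then Z true else 0) true = 0
      simp⟩
  have htt : (fun i : Bool => if i then Z true else 0) ∈
      W ⊓ LinearMap.ker (LinearMap.proj false) := ⟨hcon, rfl⟩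
  have hZ0 := Submodule.add_mem_sup hft htt
  rw [sub_add_cancel] at hZ0
  exact (Submodule.disjoint_def.mp hdisj) Z hZ0 hZC

/-- Splitting off what is deep on the false side. -/
theorem exists_side_split {n : ℕ} (hn : d.N ≤ n) {t₀ : A} (ht₀ : π t₀ = 0) (ht₀' : t₀ ≠ 0) :
    ∃ γ : A, π γ = 0 ∧ γ ≠ 0 ∧ ∀ E ∈ riemannRochSpace (D + n • T.G), ∀ ev' : ∀ i, (T.R i).O,
      (∀ i, algebraMap K F (d.c i) * (ev' i : F) = E) →
      ∃ l ∈ riemannRochSpace (D + n • T.G), ∃ (lv c : ∀ i, (T.R i).O) (μ : A),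
        (∀ i, algebraMap K F (d.c i) * (lv i : F) = l) ∧
        (T.R false).ι γ ∣ lv false ∧
        (T.R true).ι γ ∣ ev' true - lv true - (T.R true).ι μ * c true ∧
        (μ ≠ 0 → (fun i : Bool => if i then (T.R true).red (c true) else 0) ∉
          T.glued (fun i => n • T.Gk i) 1) := by
  classical
  set W1 := T.glued (fun i => n • T.Gk i) 1 with hW1
  let Sd : Bool → Submodule k (Bool → Fk) := fun i => W1 ⊓ LinearMap.ker (LinearMap.proj (!i))
  obtain ⟨C', hC'⟩ := (Sd false ⊔ Sd true).exists_isCompl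
  set C := C' ⊓ W1 with hC
  have hle : Sd false ⊔ Sd true ≤ W1 := sup_le inf_le_left inf_le_left
  have hsup : (Sd false ⊔ Sd true) ⊔ C = W1 := by
    rw [hC, ← sup_inf_assoc_of_le C' hle, hC'.sup_eq_top, top_inf_eq]
  have hdisj : Disjoint (Sd false ⊔ Sd true) C := hC'.disjoint.mono_right inf_le_left
  have hdft : Disjoint (Sd false) (Sd true) := Submodule.disjoint_def.mpr fun w h1 h2 => by
    funext i
    cases i
    · exact h2.2
    · exact h1.2
  have := T.finiteDimensional_glued (fun i => n • T.Gk i) 1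
  have : ∀ i, FiniteDimensional k (Sd i) := fun i =>
    Submodule.finiteDimensional_of_le (inf_le_left : Sd i ≤ W1)
  have : FiniteDimensional k C := Submodule.finiteDimensional_of_le (inf_le_right : C ≤ W1)
  let bf := Module.finBasis k (Sd false)
  let bt := Module.finBasis k (Sd true)
  let bC := Module.finBasis k C
  let w : (Fin _ ⊕ Fin _) ⊕ Fin _ → Bool → Fk :=
    Sum.elim (Sum.elim (fun j => (bf j : Bool → Fk)) (fun j => (bt j : Bool → Fk)))
      (fun j => (bC j : Bool → Fk))
  have hwW : ∀ j, w j ∈ W1 := fun j => by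
    rcases j with (j | j) | j
    · exact (bf j).2.1
    · exact (bt j).2.1
    · exact (inf_le_right : C ≤ W1) (bC j).2
  have hlift : ∀ j, ∃ u ∈ riemannRochSpace (D + n • T.G), ∀ i, ∃ v : (T.R i).O,
      algebraMap K F (d.c i) * (v : F) = u ∧ (T.R i).red v = w j i := fun j => by
    have := hwW j
    rw [hW1, ← d.image_eq n hn] at this
    exact this
  choose u hu huv using hlift
  choose v hv hvr using huv
  have hli : LinearIndependent k w := by
    have hspf : Submodule.span k (Set.range fun j => (bf j : Bool → Fk)) ≤ Sd false :=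
      Submodule.span_le.mpr (by rintro _ ⟨j, rfl⟩; exact (bf j).2)
    have hspt : Submodule.span k (Set.range fun j => (bt j : Bool → Fk)) ≤ Sd true :=
      Submodule.span_le.mpr (by rintro _ ⟨j, rfl⟩; exact (bt j).2)
    refine LinearIndependent.sum_type (LinearIndependent.sum_type
      (bf.linearIndependent.map' (Sd false).subtype (Submodule.ker_subtype _))
      (bt.linearIndependent.map' (Sd true).subtype (Submodule.ker_subtype _))
      (hdft.mono hspf hspt))
      (bC.linearIndependent.map' C.subtype (Submodule.ker_subtype _)) ?_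
    refine hdisj.mono ?_ (Submodule.span_le.mpr (by rintro _ ⟨j, rfl⟩; exact (bC j).2))
    rw [Set.Sum.elim_range, Submodule.span_union]
    exact sup_le_sup hspf hspt
  have := T.rrF.finiteDim (D + n • T.G)
  have hcard : Fintype.card ((Fin (Module.finrank k (Sd false)) ⊕
      Fin (Module.finrank k (Sd true))) ⊕ Fin (Module.finrank k C)) =
      Module.finrank k (pairImage T.R d.c (riemannRochSpace (D + n • T.G))) := by
    have h := Submodule.finrank_sup_add_finrank_inf_eq (Sd false ⊔ Sd true) C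
    have h' := Submodule.finrank_sup_add_finrank_inf_eq (Sd false) (Sd true)
    rw [hsup, hdisj.eq_bot, finrank_bot, add_zero] at h
    rw [hdft.eq_bot, finrank_bot, add_zero] at h'
    rw [Fintype.card_sum, Fintype.card_sum, Fintype.card_fin, Fintype.card_fin, Fintype.card_fin,
      d.image_eq n hn, ← hW1, h, h']
  -- the depths
  have hdeep : ∀ j : Fin (Module.finrank k (Sd false)) ⊕ Fin (Module.finrank k (Sd true)),
      ∃ a : A, π a = 0 ∧ (T.R (Sum.elim (fun _ => true) (fun _ => false) j)).ι a ∣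
        v (Sum.inl j) (Sum.elim (fun _ => true) (fun _ => false) j) := fun j => by
    refine T.exists_dvd_of_red_eq_zero ht₀ _ ?_
    rw [hvr]
    cases j with
    | inl j => exact (bf j).2.2
    | inr j => exact (bt j).2.2
  choose a ha hav using hdeep
  obtain ⟨γ, hγ, hγt, hγa⟩ := exists_common_finset Finset.univ a (fun j _ => ha j) ht₀
  refine ⟨γ, hγ, ne_zero_of_dvd_ne_zero hγt ht₀', fun E hE ev' hev => ?_⟩
  obtain ⟨β, hβ⟩ := T.exists_expansion d.c_ne hv hvr hli hu hcard hE
  have hβA : ∀ j, β j ∈ A := coeff_mem hv hvr hli d.c_ne β fun i => ⟨ev' i, by rw [hev, hβ]⟩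
  let b : _ → A := fun j => ⟨β j, hβA j⟩
  have hsum : ∀ i, ev' i = ∑ j, (T.R i).ι (b j) * v j i := fun i => by
    refine Subtype.ext (mul_left_cancel₀ ((map_ne_zero (algebraMap K F)).mpr (d.c_ne i)) ?_)
    rw [hev, hβ, AddSubmonoidClass.coe_finsetSum, Finset.mul_sum]
    exact Finset.sum_congr rfl fun j _ => by
      rw [Subring.coe_mul, RedBase.coe_ι, mul_left_comm, hv]
  let lv : ∀ i, (T.R i).O :=
    fun i => ∑ j, (T.R i).ι (b (Sum.inl (Sum.inr j))) * v (Sum.inl (Sum.inr j)) i
  have hlf : (T.R false).ι γ ∣ lv false := Finset.dvd_sum fun j _ =>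
    Dvd.dvd.mul_left ((map_dvd (T.R false).ι (hγa (Sum.inr j) (Finset.mem_univ _))).trans
      (hav (Sum.inr j))) _
  have hrest : (T.R true).ι γ ∣ ∑ j,
      (T.R true).ι (b (Sum.inl (Sum.inl j))) * v (Sum.inl (Sum.inl j)) true :=
    Finset.dvd_sum fun j _ =>
      Dvd.dvd.mul_left ((map_dvd (T.R true).ι (hγa (Sum.inl j) (Finset.mem_univ _))).trans
        (hav (Sum.inl j))) _
  refine ⟨∑ j, algebraMap K F (β (Sum.inl (Sum.inr j))) * u (Sum.inl (Sum.inr j)),
    Submodule.sum_mem _ fun j _ => by rw [← Algebra.smul_def]; exact Submodule.smul_mem _ _ (hu _),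
    lv, ?_⟩
  have hlv : ∀ i, algebraMap K F (d.c i) * (lv i : F) =
      ∑ j, algebraMap K F (β (Sum.inl (Sum.inr j))) * u (Sum.inl (Sum.inr j)) := fun i => by
    rw [AddSubmonoidClass.coe_finsetSum, Finset.mul_sum]
    exact Finset.sum_congr rfl fun j _ => by
      rw [Subring.coe_mul, RedBase.coe_ι, mul_left_comm, hv]
  have htrue : ev' true - lv true =
      ∑ j, (T.R true).ι (b (Sum.inl (Sum.inl j))) * v (Sum.inl (Sum.inl j)) true +
        ∑ j, (T.R true).ι (b (Sum.inr j)) * v (Sum.inr j) true := by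
    rw [hsum true, Fintype.sum_sum_type, Fintype.sum_sum_type]
    simp only [lv]
    ring
  by_cases hzero : ∀ j, β (Sum.inr j) = 0
  · refine ⟨fun i => 0, 0, hlv, hlf, ?_, fun h => absurd rfl h⟩
    rw [htrue, map_zero, zero_mul, sub_zero]
    refine dvd_add hrest (Finset.dvd_sum fun j _ => ?_)
    rw [show b (Sum.inr j) = 0 from Subtype.ext (hzero j), map_zero, zero_mul]
    exact dvd_zero _
  push Not at hzero
  obtain ⟨j₀, hj₀⟩ := hzero
  obtain ⟨j₁, hl0, hd⟩ := exists_div_mem (A := A) (fun j => β (Sum.inr j)) hj₀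
  let c : ∀ i, (T.R i).O := fun i =>
    ∑ j, (T.R i).ι ⟨β (Sum.inr j) / β (Sum.inr j₁), hd j⟩ * v (Sum.inr j) i
  refine ⟨c, b (Sum.inr j₁), hlv, hlf, ?_, fun _ hcon => ?_⟩
  · rw [htrue, Finset.mul_sum, add_sub_assoc]
    refine dvd_add hrest ?_
    rw [← Finset.sum_sub_distrib]
    refine Finset.dvd_sum fun j _ => ?_
    rw [← mul_assoc, ← map_mul, show b (Sum.inr j₁) * ⟨_, hd j⟩ = b (Sum.inr j) from Subtype.ext
      (mul_div_cancel₀ _ hl0), sub_self]
    exact dvd_zero _
  set Z : Bool → Fk := ∑ j, π ⟨β (Sum.inr j) / β (Sum.inr j₁), hd j⟩ • (bC j : Bool → Fk) with hZ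
  have hred : ∀ i, (T.R i).red (c i) = Z i := fun i => by
    rw [map_sum, hZ, Finset.sum_apply]
    exact Finset.sum_congr rfl fun j _ => by
      rw [map_mul, RedBase.red_ι, hvr, Pi.smul_apply, Algebra.smul_def]; rfl
  rw [hred] at hcon
  have hZC : Z ∈ C := Submodule.sum_mem _ fun j _ => Submodule.smul_mem _ _ (bC j).2
  have hZ0' : Z = 0 := eq_zero_of_truncation_mem inf_le_right hdisj hZC hcon
  have hcoe : ∑ j, π ⟨β (Sum.inr j) / β (Sum.inr j₁), hd j⟩ • bC j = 0 :=
    Subtype.ext (by simpa [hZ] using hZ0')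
  have h1 := Fintype.linearIndependent_iff.mp bC.linearIndependent _ hcoe j₁
  rw [show (⟨β (Sum.inr j₁) / β (Sum.inr j₁), hd j₁⟩ : A) = 1 from Subtype.ext (div_self hl0),
    map_one] at h1
  exact one_ne_zero h1

/-- There is a section with poles bounded by `N G` whose data `t` make `e t ^ m` congruent to `1`
modulo `η ^ m`. -/
def Close (η : A) : Prop :=
  ∃ U ∈ riemannRochSpace (D + d.N • T.G), ∃ t : ∀ i, (T.R i).O,
    (∀ i, algebraMap K F (d.c i) * (t i : F) = U) ∧ (∀ i, (T.R i).red (t i) = 1) ∧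
      ∀ i, (T.R i).ι (η ^ m) ∣ d.e i * t i ^ m - 1

end TrivialData

namespace TrivialData

variable {T} {p : ℕ} {D : Divisor K F} (d : T.TrivialData p D)

/-- The error of an approximate root, divided by a scalar, reduces to a glued pair. -/
theorem glued_of_divided (hp : p.Prime) {n : ℕ} {U : F}
    (hU : U ∈ riemannRochSpace (D + n • T.G)) (t : ∀ i, (T.R i).O)
    (ht : ∀ i, algebraMap K F (d.c i) * (t i : F) = U) {μ : A} (hμ : μ ≠ 0)
    (E : ∀ i, (T.R i).O) (hE : ∀ i, d.e i * t i ^ p - 1 = (T.R i).ι μ * E i) :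
    (fun i => (T.R i).red (E i)) ∈ T.glued (fun i => (p * n) • T.Gk i) 1 := by
  have hμK : algebraMap K F (μ : K) ≠ 0 := (map_ne_zero _).mpr fun h => hμ (Subtype.ext h)
  set Y : F := algebraMap K F (μ : K)⁻¹ * (d.f * U ^ p - 1) with hY
  have hYmem : Y ∈ riemannRochSpace ((p * n) • T.G) := by
    rw [hY, ← Algebra.smul_def]
    exact Submodule.smul_mem _ _
        (sub_mem (d.toNormalData.pow_mem_space hp.pos hU) (T.one_mem_space _))
  have hEY : ∀ i, (E i : F) = Y := fun i => by
    have h := congrArg Subtype.val (hE i)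
    simp only [AddSubgroupClass.coe_sub, Subring.coe_mul, SubmonoidClass.coe_pow, Subring.coe_one,
      RedBase.coe_ι] at h
    have hfe : d.f * U ^ p = (d.e i : F) * (t i : F) ^ p := by
      rw [d.e_eq, ← ht i, mul_pow]; ring
    rw [hY, hfe, h, map_inv₀, ← mul_assoc, inv_mul_cancel₀ hμK, one_mul]
  have hb := T.bound' hYmem E hEY
  exact ⟨hb.1, hb.2⟩

/-- **Compression**: an approximate root with poles bounded by `n G` gives one with poles bounded by
`N G`, of the same depth. -/
theorem close_of_root (hp : p.Prime) (hpk : (p : k) = 0) {θ η θ' : A} (hθ0 : θ ≠ 0)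
    (hθ : θ ^ (p - 1) = -(p : A)) (hηθ : θ = η * θ') (hη : π η = 0) {n : ℕ} (hn : d.N ≤ n)
    {U : F} (hU : U ∈ riemannRochSpace (D + n • T.G)) (t : ∀ i, (T.R i).O)
    (ht : ∀ i, algebraMap K F (d.c i) * (t i : F) = U) (htr : ∀ i, (T.R i).red (t i) = 1)
    (hg : ∀ i, (T.R i).ι (η ^ p) ∣ d.e i * t i ^ p - 1) : d.Close η := by
  obtain ⟨U0, hU0, t0, c, μ, ht0, htc, hμ⟩ := d.exists_decomp hn hU t ht
  refine ⟨U0, hU0, t0, ht0, ?_⟩
  choose g hg using hg
  have hη0 : η ≠ 0 := fun h => hθ0 (by rw [hηθ, h, zero_mul])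
  rcases T.dvd_or_shallower η μ with ⟨s, hs⟩ | ⟨m, hm, hηm⟩
  · refine ⟨fun i => ?_, fun i => ?_⟩
    · have h := congrArg (T.R i).red (htc i)
      rw [map_add, map_mul, RedBase.red_ι, hs, map_mul, hη, zero_mul, map_zero, zero_mul, add_zero,
        htr] at h
      exact h.symm
    · have hg' : d.e i * t i ^ p - 1 = (T.R i).ι η ^ p * g i := by rw [hg i, map_pow]
      have hp' : ((p : ℕ) : (T.R i).O) =
          -((T.R i).ι η ^ (p - 1) * (T.R i).ι θ' ^ (p - 1)) := by
        rw [← mul_pow, ← map_mul, ← hηθ, ← map_pow, hθ, map_neg, map_natCast, neg_neg]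
      obtain ⟨H, hH⟩ := exists_shift hp hg' hp' (-((T.R i).ι s * c i))
      have he : t i + (T.R i).ι η * -((T.R i).ι s * c i) = t0 i := by
        rw [htc i, hs, map_mul]; ring
      rw [he] at hH
      rw [hH, map_pow]
      exact dvd_mul_right _ _
  · exfalso
    have hμ0 : μ ≠ 0 := fun h => hη0 (by rw [hηm, h, zero_mul])
    obtain ⟨-, hZ⟩ := hμ hμ0
    have : Fact p.Prime := ⟨hp⟩
    have : CharP k p := (CharP.charP_iff_prime_eq_zero hp).mpr hpk
    have hgi : ∀ i, d.e i * t i ^ p - 1 = (T.R i).ι μ ^ p * ((T.R i).ι m ^ p * g i) := fun i => by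
      rw [hg i, hηm, map_pow, map_mul, mul_pow, mul_assoc]
    have hp' : ∀ i, ((p : ℕ) : (T.R i).O) =
        -((T.R i).ι μ ^ (p - 1) * (T.R i).ι (m * θ') ^ (p - 1)) := fun i => by
      rw [← mul_pow, ← map_mul, ← mul_assoc, ← hηm, ← hηθ, ← map_pow, hθ, map_neg, map_natCast,
        neg_neg]
    choose H hH using fun i => exists_shift hp (hgi i) (hp' i) (-c i)
    have he : ∀ i, t i + (T.R i).ι μ * -c i = t0 i := fun i => by rw [htc i]; ring
    have hH' : ∀ i, d.e i * t0 i ^ p - 1 = (T.R i).ι (μ ^ p) * ((T.R i).ι m ^ p * g i +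
        d.e i * (-c i) ^ p - (T.R i).ι (m * θ') ^ (p - 1) * d.e i *
          (t i ^ (p - 1) * -c i + (T.R i).ι μ * (-c i) ^ 2 * H i)) := fun i => by
      rw [map_pow, ← hH i, he i]
    have hpair := d.glued_of_divided hp hU0 t0 ht0 (pow_ne_zero _ hμ0) _ hH'
    have hred : ∀ i, (T.R i).red ((T.R i).ι m ^ p * g i +
        d.e i * (-c i) ^ p - (T.R i).ι (m * θ') ^ (p - 1) * d.e i *
          (t i ^ (p - 1) * -c i + (T.R i).ι μ * (-c i) ^ 2 * H i)) =
        (-(T.R i).red (c i)) ^ p := fun i => by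
      simp [hm, d.red_e, zero_pow hp.ne_zero,
        zero_pow (show p - 1 ≠ 0 by have := hp.two_le; omega)]
    simp only [hred] at hpair
    refine hZ ?_
    have := neg_mem (T.glued_of_pow_mem hp hpk hpair)
    have e : -(fun i => -(T.R i).red (c i)) = fun i => (T.R i).red (c i) :=
      funext fun i => neg_neg _
    rwa [e] at this

end TrivialData

end TwoRed

end Fermat.Agent.TwoComponent
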