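import Fermat.Agent.TwoComponent.Depth.Norm
import Fermat.Agent.TwoComponent.Depth.Tools
import Fermat.Agent.TwoComponent.Fixed
import Fermat.Agent.TwoComponent.Trace

/-!
# Exact roots on the isomorphic side

If the pushforward of a `p`-torsion class vanishes, the norm of `e t ^ p` is an exact `p`-th power,
and on the isomorphic side this is congruent to `e t ^ p` beyond its distance to `1`.
-/

noncomputable section

open AlgebraicCurve Fermat.Agent.Red

namespace Fermat.Agent.TwoComponent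

variable {K k F Fk : Type*} [Field K] [Field F] [Algebra K F] [Field k] [Field Fk] [Algebra k Fk]
variable {A : ValuationSubring K} {π : A →+* k}
variable {S : Type*} [Fintype S] {T : TwoRed A π F Fk S}

namespace Degen

variable {FM : Type*} [Field FM] [Algebra K FM] (G : Degen T FM)

/-- Functions with bounded poles downstairs pull back to functions with bounded poles. -/
def BoundedPull (hint : G.φ.toRingHom.IsIntegral) : Prop :=
  ∀ n : ℕ, ∃ n' : ℕ, ∀ z : FM,
    (∀ v : Place K FM, -(Divisor.pushforwardAlong G.φ hint (n • T.G)) v ≤ v.ord z) →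
      G.φ z ∈ riemannRochSpace (n' • T.G)

/-- The trace is uniformly congruent to the reduction on the isomorphic side. -/
theorem exists_trace_congr (hq : G.q.Prime) (hqk : (G.q : k) = 0) (N : ℕ) {t₀ : A}
    (ht₀ : π t₀ = 0) (ht₀' : t₀ ≠ 0) :
    letI := algebraAlong G.φ
    ∃ μ : A, π μ = 0 ∧ μ ≠ 0 ∧ ∀ Ω ∈ riemannRochSpace (N • T.G), ∀ v : ∀ i, (T.R i).O,
      (∀ i, (v i : F) = Ω) → ∃ tr : G.RM.O, (tr : FM) = Algebra.trace FM F Ω ∧
        (T.R G.side).ι μ ∣ v G.side - G.pullO G.side tr := by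
  classical
  let := algebraAlong G.φ
  have := isScalarTower_along G.φ
  have := T.rrF.finiteDim (N • T.G)
  set V := riemannRochSpace (N • T.G) with hV
  have hc1 : ∀ i, (1 : Bool → K) i ≠ 0 := fun _ => one_ne_zero
  have := finiteDimensional_pairImage (R := T.R) hc1 V
  let b := Module.finBasis k (pairImage T.R (1 : Bool → K) V)
  obtain ⟨w, wv, hw, hwe, hwr⟩ := exists_lifts (R := T.R) (c := (1 : Bool → K)) (V := V)
    (w := fun j => (b j : Bool → Fk)) fun j => (b j).2
  have hwe' : ∀ j i, (wv j i : F) = w j := fun j i => by simpa using hwe j i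
  choose tr htr htrr hexp using fun j =>
    G.exists_norm_expansion hq hqk (wv j G.side) (wv j (!G.side)) (hwe' j _) (hwe' j _)
  choose a ha hav using fun j => T.exists_dvd_of_red_eq_zero ht₀ G.side
    (v := wv j G.side - G.pullO G.side (tr j)) (by
      rw [map_sub, G.red_pullO_side, htrr, sub_self])
  obtain ⟨μ, hμ, hμt, hμa⟩ := TwoRed.exists_common_finset Finset.univ a (fun j _ => ha j) ht₀
  refine ⟨μ, hμ, TwoRed.ne_zero_of_dvd_ne_zero hμt ht₀', fun Ω hΩ v hv => ?_⟩
  obtain ⟨β, hβ⟩ := T.exists_expansion hc1 hwe hwr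
    (b.linearIndependent.map' (Submodule.subtype _) (Submodule.ker_subtype _)) hw
    (Fintype.card_fin _) hΩ
  have hβA : ∀ j, β j ∈ A := coeff_mem hwe hwr
    (b.linearIndependent.map' (Submodule.subtype _) (Submodule.ker_subtype _)) hc1 β
    fun i => ⟨v i, by rw [Pi.one_apply, map_one, one_mul, hv, hβ]⟩
  refine ⟨∑ j, G.RM.ι ⟨β j, hβA j⟩ * tr j, ?_, ?_⟩
  · rw [AddSubmonoidClass.coe_finsetSum, hβ, map_sum]
    refine Finset.sum_congr rfl fun j _ => ?_
    rw [Subring.coe_mul, htr, RedBase.coe_ι, IsScalarTower.algebraMap_apply K FM F,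
      ← Algebra.smul_def, ← Algebra.smul_def, map_smul]
    exact (algebraMap_smul FM _ _).symm
  · have he : v G.side - G.pullO G.side (∑ j, G.RM.ι ⟨β j, hβA j⟩ * tr j) =
        ∑ j, (T.R G.side).ι ⟨β j, hβA j⟩ * (wv j G.side - G.pullO G.side (tr j)) := by
      refine Subtype.ext ?_
      rw [AddSubgroupClass.coe_sub, hv, AddSubmonoidClass.coe_finsetSum, hβ]
      change _ - G.φ (((∑ j, G.RM.ι ⟨β j, hβA j⟩ * tr j : G.RM.O)) : FM) = _
      rw [AddSubmonoidClass.coe_finsetSum, map_sum, ← Finset.sum_sub_distrib]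
      refine Finset.sum_congr rfl fun j _ => ?_
      rw [Subring.coe_mul, Subring.coe_mul, AddSubgroupClass.coe_sub, RedBase.coe_ι, RedBase.coe_ι,
        map_mul, AlgHom.commutes, hwe', mul_sub]
      rfl
    rw [he]
    exact Finset.dvd_sum fun j _ => Dvd.dvd.mul_left
      ((map_dvd (T.R G.side).ι (hμa j (Finset.mem_univ _))).trans (hav j)) _

variable (hconst : ∀ h : FM, (∀ v : Place K FM, 0 ≤ v.ord h) → ∃ c : K, h = algebraMap K FM c)
variable (hint : G.φ.toRingHom.IsIntegral) (hfin : FiniteAlong K G.φ)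
variable (hN : NormFormulaAlong K G.φ hfin)
include hconst hN

/-- The norm of `f U ^ p` is the `p`-th power of a function with poles below those of `U`. -/
theorem exists_norm_root [IsAlgClosed K] {p : ℕ} (hp : 0 < p) {D : Divisor K F} {f : F}
    (hf : f ≠ 0) (hdiv : ∀ P : Place K F, P.ord f = (p : ℤ) * D P)
    (hD : Divisor.pushforwardAlong G.φ hint D ∈ Divisor.principal (K := K) (F := FM))
    {n : ℕ} {U : F} (hU0 : U ≠ 0) (hU : U ∈ riemannRochSpace (D + n • T.G)) :
    letI := algebraAlong G.φ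
    ∃ T0 : FM, Algebra.norm FM (f * U ^ p) = T0 ^ p ∧
      ∀ v : Place K FM, -(Divisor.pushforwardAlong G.φ hint (n • T.G)) v ≤ v.ord T0 := by
  classical
  let := algebraAlong G.φ
  have := isScalarTower_along G.φ
  have := isIntegral_along G.φ hint
  have : Module.Finite FM F := hfin
  obtain ⟨h, hh0, hh⟩ := hD
  have hH : Divisor.PushforwardNormFormula K FM F := hN
  have hord : ∀ v : Place K FM, v.ord (Algebra.norm FM f) = p * v.ord h := fun v => by
    rw [← hh, ← hH f hf (p • D) (fun P => by rw [Finsupp.smul_apply, nsmul_eq_mul, hdiv]) v,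
      show Divisor.pushforwardAlong G.φ hint D = Divisor.pushforward FM D from rfl, map_nsmul,
      Finsupp.smul_apply, nsmul_eq_mul]
  have hNne : Algebra.norm FM f ≠ 0 := Algebra.norm_ne_zero_iff.mpr hf
  obtain ⟨a, ha⟩ := hconst (Algebra.norm FM f / h ^ p) fun v => by
    rw [ord_div v hNne (pow_ne_zero _ hh0), ord_pow, hord, sub_self]
  rw [div_eq_iff (pow_ne_zero _ hh0)] at ha
  have ha0 : a ≠ 0 := fun h0 => hNne (by rw [ha, h0, map_zero, zero_mul])
  obtain ⟨b, hb⟩ := IsAlgClosed.exists_pow_nat_eq a hp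
  have hb0 : b ≠ 0 := fun h0 => ha0 (by rw [← hb, h0, zero_pow hp.ne'])
  have hNU : Algebra.norm FM U ≠ 0 := Algebra.norm_ne_zero_iff.mpr hU0
  refine ⟨algebraMap K FM b * (h * Algebra.norm FM U), ?_, fun v => ?_⟩
  · simp only [map_mul, ha, map_pow, ← hb]
    ring
  obtain ⟨H, hHU, -⟩ := T.rrF.exists_div U hU0
  have hpos : 0 ≤ (Divisor.pushforward FM (H + (D + n • T.G))) v := by
    rw [Divisor.pushforward_apply]
    refine Finset.sum_nonneg fun w _ => ?_
    have h1 := ((mem_riemannRochSpace_iff.mp hU) w).resolve_left hU0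
    have h2 : (H + (D + n • T.G)) w = w.ord U + (D + n • T.G) w := by
      rw [Finsupp.add_apply, hHU]
    split_ifs
    · exact mul_nonneg (by rw [h2]; omega) (Int.natCast_nonneg _)
    · exact le_rfl
  rw [map_add, map_add, Finsupp.add_apply, Finsupp.add_apply, hH U hU0 H hHU v,
    show Divisor.pushforward FM D v = v.ord h from hh v] at hpos
  rw [ord_algebraMap_mul _ hb0, v.ord_mul hh0 hNU,
    show Divisor.pushforwardAlong G.φ hint (n • T.G) = Divisor.pushforward FM (n • T.G) from rfl]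
  linarith

/-- **Exact roots on the isomorphic side.** -/
theorem exists_side_root [IsAlgClosed K] {p : ℕ} (hp : p.Prime) (hpk : (p : k) = 0)
    (hqp : G.q = p) (hpull : G.BoundedPull hint) {θ : A} (hθ0 : θ ≠ 0)
    (hθ : θ ^ (p - 1) = -(p : A)) {D : Divisor K F} (d : T.TrivialData p D)
    (hD : Divisor.pushforwardAlong G.φ hint D ∈ Divisor.principal (K := K) (F := FM)) :
    ∃ (n' : ℕ) (μ : A), π μ = 0 ∧ μ ≠ 0 ∧
      ∀ δ θ' : A, θ = δ * θ' → π δ = 0 → ∀ γ : A, γ ∣ μ → γ ∣ δ →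
        ∀ U ∈ riemannRochSpace (D + d.N • T.G), ∀ t : ∀ i, (T.R i).O,
          (∀ i, algebraMap K F (d.c i) * (t i : F) = U) → (∀ i, (T.R i).red (t i) = 1) →
          (∀ i, (T.R i).ι (δ ^ p) ∣ d.e i * t i ^ p - 1) →
          ∃ a : ∀ i, (T.R i).O, (∀ i j, (a i : F) = (a j : F)) ∧
            (a false : F) ∈ riemannRochSpace (n' • T.G) ∧
            (T.R G.side).ι (δ ^ p * γ) ∣ d.e G.side * t G.side ^ p -
              (1 + (T.R G.side).ι δ * a G.side) ^ p := by
  classical
  let := algebraAlong G.φ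
  have := isScalarTower_along G.φ
  have hπθ := TwoRed.pi_theta (π := π) hpk hθ
  obtain ⟨μ, hμ, hμ0, htrace⟩ := G.exists_trace_congr (hqp ▸ hp) (hqp ▸ hpk) (p * d.N) hπθ hθ0
  obtain ⟨n', hn'⟩ := hpull d.N
  refine ⟨n', μ, hμ, hμ0, fun δ θ' hθδ hδ γ hγμ hγδ U hU t ht htr hclose => ?_⟩
  have hδ0 : δ ≠ 0 := fun h => hθ0 (by rw [hθδ, h, zero_mul])
  have hδK : algebraMap K F (δ : K) ≠ 0 := (map_ne_zero _).mpr fun h => hδ0 (Subtype.ext h)
  choose g hg using hclose
  -- the first order part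
  set Ω : F := algebraMap K F ((δ : K) ^ p)⁻¹ * (d.f * U ^ p - 1) with hΩdef
  have hΩmem : Ω ∈ riemannRochSpace ((p * d.N) • T.G) := by
    rw [hΩdef, ← Algebra.smul_def]
    exact Submodule.smul_mem _ _
      (sub_mem (d.toNormalData.pow_mem_space hp.pos hU) (T.one_mem_space _))
  have hfe : ∀ i, d.f * U ^ p = (d.e i : F) * (t i : F) ^ p := fun i => by
    rw [d.e_eq, ← ht i, mul_pow]; ring
  have hgΩ : ∀ i, (g i : F) = Ω := fun i => by
    have h := congrArg Subtype.val (hg i)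
    simp only [AddSubgroupClass.coe_sub, Subring.coe_mul, SubmonoidClass.coe_pow, Subring.coe_one,
      RedBase.coe_ι] at h
    rw [hΩdef, hfe i, h, map_inv₀, map_pow, ← mul_assoc,
      inv_mul_cancel₀ (pow_ne_zero _ hδK), one_mul]
  obtain ⟨tr, htrΩ, hμdvd⟩ := htrace Ω hΩmem g hgΩ
  obtain ⟨tr', htr', -, hexp⟩ := G.exists_norm_expansion (hqp ▸ hp) (hqp ▸ hpk) (g G.side)
    (g (!G.side)) (hgΩ _) (hgΩ _)
  obtain rfl : tr' = tr := Subtype.ext (htr'.trans htrΩ.symm)
  obtain ⟨P, hP⟩ := hexp (δ ^ p)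
  have hU0 : U ≠ 0 := by
    rw [← ht false]
    exact mul_ne_zero ((map_ne_zero _).mpr (d.c_ne false))
      ((T.R false).coe_ne_zero (by rw [htr]; exact one_ne_zero))
  obtain ⟨T0, hT0, hT0pole⟩ :=
    G.exists_norm_root hconst hint hfin hN hp.pos d.f_ne d.div_f hD hU0 hU
  set w : G.RM.O := 1 + G.RM.ι (δ ^ p) * tr' + G.RM.ι (δ ^ p) ^ 2 * P with hw
  have hTw : T0 ^ p = (w : FM) := by
    rw [← hT0, ← hP, hΩdef, SubmonoidClass.coe_pow, ← mul_assoc, ← map_mul,
      mul_inv_cancel₀ (pow_ne_zero _ fun h => hδ0 (Subtype.ext h)), map_one, one_mul,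
      add_sub_cancel]
  have hwr : G.RM.red w = 1 := by
    simp [hw, hδ, zero_pow hp.ne_zero]
  -- it is integral
  have : Fact p.Prime := ⟨hp⟩
  have : CharP Fk p := (CharP.charP_iff_prime_eq_zero hp).mpr (by
    rw [← map_natCast (algebraMap k Fk), hpk, map_zero])
  have hT0ne : T0 ≠ 0 := fun h => (G.RM.coe_ne_zero (u := w) (by rw [hwr]; exact one_ne_zero))
    (by rw [← hTw, h, zero_pow hp.ne_zero])
  obtain ⟨c, v, hv, hcv⟩ := G.RM.scale T0 hT0ne
  have hcA : c ∈ A := mem_of_pow_mem (A := A) hp.pos (G.RM.mem_of_smul_mem (u := v ^ p)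
    (f := w) (by rw [map_pow]; exact pow_ne_zero _ hv)
    (by rw [← hTw, hcv, mul_pow, map_pow, SubmonoidClass.coe_pow]))
  set TT : G.RM.O := G.RM.ι ⟨c, hcA⟩ * v with hTT
  have hTTc : (TT : FM) = T0 := by rw [hTT, Subring.coe_mul, RedBase.coe_ι, hcv]
  have hTTw : TT ^ p = w := Subtype.ext (by rw [SubmonoidClass.coe_pow, hTTc, hTw])
  have hTTr : G.RM.red TT = 1 := by
    refine frobenius_inj Fk p ?_
    rw [frobenius_def, frobenius_def, one_pow, ← map_pow, hTTw, hwr]
  -- `TT = 1 + δ τ`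
  obtain ⟨τ, hτ⟩ : ∃ τ : G.RM.O, TT = 1 + G.RM.ι δ * τ := by
    rcases eq_or_ne ((TT - 1 : G.RM.O) : FM) 0 with h0 | h0
    · exact ⟨0, by rw [mul_zero, add_zero]; exact sub_eq_zero.mp (Subtype.ext h0)⟩
    obtain ⟨b, v', hv', hbv⟩ := G.RM.exists_scale_mem h0
    rcases T.dvd_or_shallower δ b with ⟨s, hs⟩ | ⟨m, hm, hδm⟩
    · refine ⟨G.RM.ι s * v', ?_⟩
      rw [← mul_assoc, ← map_mul, ← hs, ← hbv, add_sub_cancel]
    exfalso
    have hb0 : b ≠ 0 := fun h => hδ0 (by rw [hδm, h, zero_mul])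
    have hp' : ((p : ℕ) : G.RM.O) =
        -(G.RM.ι b ^ (p - 1) * G.RM.ι (m * θ') ^ (p - 1)) := by
      rw [← mul_pow, ← map_mul, ← mul_assoc, ← hδm, ← hθδ, ← map_pow, hθ, map_neg, map_natCast,
        neg_neg]
    obtain ⟨H, hH⟩ := exists_shift hp (e := (1 : G.RM.O)) (t := 1) (η := G.RM.ι b) (g := 0)
      (by rw [one_mul, one_pow, sub_self, mul_zero]) hp' v'
    rw [← hbv, add_sub_cancel, one_mul, hTTw, hw, hδm, map_pow, map_mul, mul_pow] at hH
    have hbne : G.RM.ι b ^ p ≠ 0 := pow_ne_zero _ fun h => hb0 (Subtype.ext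
      ((algebraMap K FM).injective (by simpa using congrArg Subtype.val h)))
    have hh : G.RM.ι m ^ p * (tr' + G.RM.ι b ^ p * G.RM.ι m ^ p * P) =
        v' ^ p - G.RM.ι (m * θ') ^ (p - 1) * (v' + G.RM.ι b * v' ^ 2 * H) := by
      refine mul_left_cancel₀ hbne ?_
      rw [one_pow, zero_add] at hH
      simp only [one_mul, mul_one] at hH
      linear_combination hH
    have := congrArg G.RM.red hh
    simp [hm, zero_pow hp.ne_zero, zero_pow (show p - 1 ≠ 0 by have := hp.two_le; omega)] at this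
    exact hv' (eq_zero_of_pow_eq_zero this.symm)
  refine ⟨fun i => G.pullO i τ, fun i j => rfl, ?_, ?_⟩
  · have hφT := hn' T0 hT0pole
    have e : G.φ (τ : FM) = algebraMap K F (δ : K)⁻¹ * (G.φ T0 - 1) := by
      rw [← hTTc, hτ, Subring.coe_add, Subring.coe_one, Subring.coe_mul, RedBase.coe_ι, map_add,
        map_one, map_mul, AlgHom.commutes, add_sub_cancel_left, map_inv₀, ← mul_assoc,
        inv_mul_cancel₀ hδK, one_mul]
    show G.φ (τ : FM) ∈ _
    rw [e, ← Algebra.smul_def]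
    exact Submodule.smul_mem _ _ (sub_mem hφT (T.one_mem_space _))
  · have hpush : (1 + (T.R G.side).ι δ * G.pullO G.side τ) ^ p = 1 + (T.R G.side).ι (δ ^ p) *
        (G.pullO G.side tr' + (T.R G.side).ι (δ ^ p) * G.pullO G.side P) := by
      refine Subtype.ext ?_
      have h : G.φ (((1 + G.RM.ι δ * τ) ^ p : G.RM.O) : FM) = G.φ (w : FM) := by
        rw [← hτ, hTTw]
      simp only [hw, SubmonoidClass.coe_pow, Subring.coe_add, Subring.coe_one, Subring.coe_mul,
        RedBase.coe_ι, map_add, map_one, map_mul, map_pow, AlgHom.commutes] at h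
      simp only [SubmonoidClass.coe_pow, Subring.coe_add, Subring.coe_one, Subring.coe_mul,
        RedBase.coe_ι, map_pow]
      show (1 + algebraMap K F (δ : K) * G.φ (τ : FM)) ^ p = 1 + algebraMap K F (δ : K) ^ p *
        (G.φ (tr' : FM) + algebraMap K F (δ : K) ^ p * G.φ (P : FM))
      linear_combination h
    have hsub : d.e G.side * t G.side ^ p - (1 + (T.R G.side).ι δ * G.pullO G.side τ) ^ p =
        (T.R G.side).ι (δ ^ p) * ((g G.side - G.pullO G.side tr') -
          (T.R G.side).ι (δ ^ p) * G.pullO G.side P) := by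
      rw [hpush]
      linear_combination hg G.side
    rw [hsub, map_mul]
    refine mul_dvd_mul_left _ (dvd_sub ((map_dvd (T.R G.side).ι hγμ).trans hμdvd) ?_)
    exact Dvd.dvd.mul_right (map_dvd (T.R G.side).ι (hγδ.trans (dvd_pow_self δ hp.ne_zero))) _

end Degen

end Fermat.Agent.TwoComponent
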