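import Fermat.Agent.TwoComponent.Depth.Iterate

/-!
# The toric part at the residue characteristic is multiplicative

For `m = p` the residue characteristic, a class of trivial reduction killed by both pushforwards is
multiplied by the cyclotomic character under inertia.
-/

noncomputable section

open AlgebraicCurve Fermat.Agent.Red

namespace Fermat.Agent.TwoComponent

variable {K k F Fk : Type*} [Field K] [Field F] [Algebra K F] [Field k] [Field Fk] [Algebra k Fk]
variable {A : ValuationSubring K} {π : A →+* k}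
variable {S : Type*} [Fintype S] {T : TwoRed A π F Fk S}

namespace TwoRed.NormalData

variable {m : ℕ} {D : Divisor K F}

theorem c_npow (d : T.NormalData m D) (a : ℕ) (i : Bool) : (d.npow a).c i = d.c i ^ a := by
  induction a with
  | zero => exact (pow_zero _).symm
  | succ a ih =>
    show (d.npow a).c i * d.c i = _
    rw [ih, pow_succ]

theorem e_npow (d : T.NormalData m D) (a : ℕ) (i : Bool) : (d.npow a).e i = d.e i ^ a := by
  induction a with
  | zero => exact (pow_zero _).symm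
  | succ a ih =>
    show (d.npow a).e i * d.e i = _
    rw [ih, pow_succ]

/-- Trivial reductions give trivial data at the residue characteristic. -/
theorem exists_toTrivial {p : ℕ} (hp : p.Prime) (hpk : (p : k) = 0) (d : T.NormalData p D)
    (he : ∀ i, (T.R i).red (d.e i) = 1) :
    ∃ d' : T.TrivialData p D, d'.toNormalData = d := by
  have : Fact p.Prime := ⟨hp⟩
  have : CharP k p := (CharP.charP_iff_prime_eq_zero hp).mpr hpk
  refine ⟨d.toTrivial hp.pos he fun s => frobenius_inj k p ?_, rfl⟩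
  rw [frobenius_def, frobenius_def, one_pow, d.lines_pow hp.pos he]

end TwoRed.NormalData

theorem exists_one_add_pow {R : Type*} [CommRing R] (x : R) (b : ℕ) :
    ∃ q, (1 + x) ^ b = 1 + b * x + x ^ 2 * q := by
  induction b with
  | zero => exact ⟨0, by simp⟩
  | succ b ih =>
    obtain ⟨q, hq⟩ := ih
    exact ⟨(b : R) + q + x * q, by rw [pow_succ, hq]; push_cast; ring⟩

/-- Torsion data of level `p ^ n` of a class killed by `p` give data of level `p`. -/
theorem TwoRed.InT00.of_pow [IsAlgClosed K] {p : ℕ} (hp : p.Prime) (hpk : (p : k) = 0) {n : ℕ}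
    (hn : n ≠ 0) {y : Pic0 K F} (hy : T.InT00 (p ^ n) y) (hpy : p • y = 0) : T.InT00 p y := by
  obtain ⟨D, d, rfl, he⟩ := hy
  have : Fact p.Prime := ⟨hp⟩
  have : CharP Fk p := (CharP.charP_iff_prime_eq_zero hp).mpr (by
    rw [← map_natCast (algebraMap k Fk), hpk, map_zero])
  obtain ⟨j, rfl⟩ : ∃ j, n = j + 1 := ⟨n - 1, by omega⟩
  have hpD : ((p • D : Divisor.degZero (K := K) (F := F)) : Divisor K F) ∈
      Divisor.principal (K := K) (F := F) := by
    refine AddSubgroup.mem_addSubgroupOf.mp ((QuotientAddGroup.eq_zero_iff _).mp ?_)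
    exact (map_nsmul (QuotientAddGroup.mk' _) p D).trans hpy
  obtain ⟨g, hg0, hg⟩ := hpD
  have hgd : ∀ P : Place K F, P.ord g = (p : ℤ) * (D : Divisor K F) P := fun P => by
    rw [← hg, AddSubgroup.coe_nsmul, Finsupp.smul_apply, nsmul_eq_mul]
  set M := p ^ j with hM
  have hM0 : 0 < M := pow_pos hp.pos j
  obtain ⟨a, ha⟩ := T.rrF.eq_const_of_ord_nonneg (f := d.f / g ^ M) fun P => by
    rw [ord_div P d.f_ne (pow_ne_zero _ hg0), ord_pow, d.div_f, hgd, hM]
    push_cast
    rw [pow_succ]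
    ring_nf
    exact le_rfl
  rw [div_eq_iff (pow_ne_zero _ hg0)] at ha
  have hdata : ∀ i, ∃ (c : K) (e : (T.R i).O), c ≠ 0 ∧
      (e : F) = algebraMap K F c ^ p * g ∧ (T.R i).red e = 1 := fun i => by
    obtain ⟨C, u, hu, hgu⟩ := (T.R i).scale g hg0
    have hC0 : C ≠ 0 := fun h => hg0 (by rw [hgu, h, map_zero, zero_mul])
    -- the reduction of `u` is constant
    set κ : K := d.c i ^ (p ^ (j + 1)) * a * C ^ M with hκ
    have hrel : (d.e i : F) = algebraMap K F κ * ((u ^ M : (T.R i).O) : F) := by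
      rw [d.e_eq, ha, hgu, hκ, SubmonoidClass.coe_pow, mul_pow, map_mul, map_mul, map_pow, map_pow]
      ring
    have hne : (T.R i).red (u ^ M) ≠ 0 := by rw [map_pow]; exact pow_ne_zero _ hu
    have hκA := (T.R i).mem_of_smul_mem hne hrel
    have heq : d.e i = (T.R i).ι ⟨κ, hκA⟩ * u ^ M := Subtype.ext hrel
    have h1 := congrArg (T.R i).red heq
    rw [he, map_mul, RedBase.red_ι, map_pow] at h1
    obtain ⟨b, hb⟩ := exists_pow_eq_res (T.R false).surj_pi hM0 (π ⟨κ, hκA⟩)
    rw [← hb, map_pow, ← mul_pow] at h1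
    have hbu : algebraMap k Fk b * (T.R i).red u = 1 := by
      refine iterateFrobenius_inj Fk p j ?_
      rw [iterateFrobenius_def, iterateFrobenius_def, one_pow, ← hM, h1]
    obtain ⟨b', rfl⟩ := (T.R i).surj_pi b
    have hb'0 : (b' : K) ≠ 0 := fun h => by
      rw [show b' = 0 from Subtype.ext h, map_zero, map_zero, zero_mul] at hbu
      exact zero_ne_one hbu
    obtain ⟨c, hc⟩ := IsAlgClosed.exists_pow_nat_eq ((b' : K) / C) hp.pos
    refine ⟨c, (T.R i).ι b' * u, fun h => ?_, ?_, by rw [map_mul, RedBase.red_ι, hbu]⟩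
    · rw [h, zero_pow hp.ne_zero, eq_comm, div_eq_zero_iff] at hc
      exact hc.elim hb'0 hC0
    · have := (map_ne_zero (algebraMap K F)).mpr hC0
      rw [Subring.coe_mul, RedBase.coe_ι, ← map_pow, hc, hgu, map_div₀]
      field_simp
  choose c e hc he' her using hdata
  exact ⟨D,
    { f := g
      f_ne := hg0
      div_f := hgd
      degree_D := Divisor.mem_degZero.mp D.2
      c := c
      c_ne := hc
      e := e
      e_eq := he'
      e_ne := fun i => by rw [her]; exact one_ne_zero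
      e_br := fun s i => by rw [her, Place.ord_one] }, rfl, her⟩

namespace SemiRed

variable (σ : SemiRed T)

/-- **The toric part is of multiplicative type**: inertia `σ` acts on a class of trivial reduction
killed by both pushforwards as multiplication by `a`, where `σ θ / θ` reduces to `a`. -/
theorem smul_eq_nsmul_of_toric [IsAlgClosed K] (hσ : σ.IsInertial) {p : ℕ} (hp : p.Prime)
    (hpk : (p : k) = 0) {θ : A} (hθ0 : θ ≠ 0) (hθ : θ ^ (p - 1) = -(p : A)) {ρ : A} {a : ℕ}
    (hρ : SemilinearAut.baseAut σ.aut (θ : K) = (ρ : K) * (θ : K)) (hρa : π ρ = (a : k))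
    {F₀ F₁ : Type*} [Field F₀] [Algebra K F₀] [Field F₁] [Algebra K F₁]
    (G₀ : Degen T F₀) (G₁ : Degen T F₁) (hs₀ : G₀.side = false) (hs₁ : G₁.side = true)
    (hq₀ : G₀.q = p) (hq₁ : G₁.q = p)
    (hc₀ : ∀ h : F₀, (∀ v : Place K F₀, 0 ≤ v.ord h) → ∃ c : K, h = algebraMap K F₀ c)
    (hc₁ : ∀ h : F₁, (∀ v : Place K F₁, 0 ≤ v.ord h) → ∃ c : K, h = algebraMap K F₁ c)
    (hi₀ : G₀.φ.toRingHom.IsIntegral) (hi₁ : G₁.φ.toRingHom.IsIntegral)
    (hf₀ : FiniteAlong K G₀.φ) (hf₁ : FiniteAlong K G₁.φ)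
    (hn₀ : NormFormulaAlong K G₀.φ hf₀) (hn₁ : NormFormulaAlong K G₁.φ hf₁)
    (hb₀ : G₀.BoundedPull hi₀) (hb₁ : G₁.BoundedPull hi₁)
    {y : Pic0 K F} (hy : T.InT00 p y) {D₀ : Divisor.degZero (K := K) (F := F)}
    (hD : Pic0.mk D₀ = y)
    (hp₀ : Divisor.pushforwardAlong G₀.φ hi₀ (D₀ : Divisor K F) ∈
      Divisor.principal (K := K) (F := F₀))
    (hp₁ : Divisor.pushforwardAlong G₁.φ hi₁ (D₀ : Divisor K F) ∈
      Divisor.principal (K := K) (F := F₁)) :
    σ.aut • y = a • y := by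
  classical
  have : Fact p.Prime := ⟨hp⟩
  have : CharP k p := (CharP.charP_iff_prime_eq_zero hp).mpr hpk
  obtain ⟨D, d, rfl, he⟩ := hy
  obtain ⟨d', rfl⟩ := d.exists_toTrivial hp hpk he
  obtain ⟨U, hU, t, ht, htr, hclose⟩ := d'.close_theta hp hpk hθ0 hθ G₀ G₁ hs₀ hs₁ hq₀ hq₁ hc₀ hc₁
    hi₀ hi₁ hf₀ hf₁ hn₀ hn₁ hb₀ hb₁
    (G₀.pushforward_principal_congr hi₀ hf₀ hn₀ hD hp₀)
    (G₁.pushforward_principal_congr hi₁ hf₁ hn₁ hD hp₁)
  choose g hg using hclose
  have hπθ := TwoRed.pi_theta (π := π) hpk hθ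
  set b : ℕ := (p - 1) * a with hb
  set Z : Divisor.degZero (K := K) (F := F) :=
    ⟨σ.aut • (D : Divisor K F) + b • (D : Divisor K F), Divisor.mem_degZero.mpr (by
      rw [map_add, map_nsmul, SemilinearAut.degree_smul, Divisor.mem_degZero.mp D.2,
        smul_zero, add_zero])⟩ with hZ
  set dz : T.NormalData p (Z : Divisor K F) :=
    (σ.mapData hσ d'.toNormalData).mul (d'.toNormalData.npow b) with hdz
  have hzred : ∀ i, (T.R i).red (dz.e i) = 1 := fun i => by
    show (T.R i).red (σ.mapO i (d'.e i) * (d'.toNormalData.npow b).e i) = 1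
    rw [map_mul, σ.red_mapO hσ, d'.red_e, d'.toNormalData.e_npow, map_pow, d'.red_e, one_pow,
      one_mul]
  obtain ⟨dzt, hdzt⟩ := dz.exists_toTrivial hp hpk hzred
  -- its section
  let tz : ∀ i, (T.R i).O := fun i => σ.mapO i (t i) * t i ^ b
  have hyz : σ.aut • U * U ^ b ∈
      riemannRochSpace ((Z : Divisor K F) + (d'.N + b * d'.N) • T.G) := by
    have h1 := σ.smul_mem_space hU
    rw [smul_add, smul_comm σ.aut (d'.N : ℕ) T.G, σ.smul_G] at h1
    exact T.mem_space_add_mul h1 (T.mem_space_npow hU b)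
  have htz : ∀ i, algebraMap K F (dz.c i) * (tz i : F) = σ.aut • U * U ^ b := fun i => by
    show algebraMap K F (SemilinearAut.baseAut σ.aut (d'.c i) * (d'.toNormalData.npow b).c i) *
      ((σ.mapO i (t i) * t i ^ b : (T.R i).O) : F) = _
    rw [d'.toNormalData.c_npow, Subring.coe_mul, coe_mapO, SubmonoidClass.coe_pow, map_mul, map_pow,
      ← ht i, smul_mul', SemilinearAut.smul_algebraMap, mul_pow]
    ring
  have htzr : ∀ i, (T.R i).red (tz i) = 1 := fun i => by
    simp [tz, σ.red_mapO hσ, htr]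
  -- it is congruent to `1` beyond `θ ^ p`
  have hσθ : ∀ i, σ.mapO i ((T.R i).ι θ) = (T.R i).ι ρ * (T.R i).ι θ := fun i => Subtype.ext (by
    rw [coe_mapO, RedBase.coe_ι, SemilinearAut.smul_algebraMap, hρ, map_mul]
    rfl)
  have hbk : (b : k) = -(a : k) := by
    rw [hb, Nat.cast_mul, Nat.cast_sub hp.one_le, hpk]
    simp
  have hE : ∀ i, ∃ E : (T.R i).O, dz.e i * tz i ^ p - 1 = (T.R i).ι θ ^ p * E ∧
      (T.R i).red E = 0 := fun i => by
    have hW : d'.e i * t i ^ p = 1 + (T.R i).ι θ ^ p * g i := by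
      rw [← map_pow, ← hg i]; ring
    have hσW : σ.mapO i (d'.e i) * σ.mapO i (t i) ^ p =
        1 + (T.R i).ι θ ^ p * ((T.R i).ι ρ ^ p * σ.mapO i (g i)) := by
      refine Subtype.ext ?_
      have h := congrArg (fun x : (T.R i).O => σ.aut • (x : F)) hW
      have hθ' := congrArg Subtype.val (hσθ i)
      simp only [coe_mapO, Subring.coe_mul, RedBase.coe_ι] at hθ'
      simp only [Subring.coe_mul, SubmonoidClass.coe_pow, Subring.coe_add, Subring.coe_one,
        RedBase.coe_ι, smul_mul', smul_pow', smul_add, smul_one, hθ'] at h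
      simp only [Subring.coe_mul, SubmonoidClass.coe_pow, Subring.coe_add, Subring.coe_one,
        RedBase.coe_ι, coe_mapO]
      linear_combination h
    obtain ⟨q, hq⟩ := exists_one_add_pow ((T.R i).ι θ ^ p * g i) b
    refine ⟨(T.R i).ι ρ ^ p * σ.mapO i (g i) + (b : (T.R i).O) * g i + (T.R i).ι θ ^ p *
        (g i ^ 2 * q + (T.R i).ι ρ ^ p * σ.mapO i (g i) *
          ((b : (T.R i).O) * g i + (T.R i).ι θ ^ p * (g i ^ 2 * q))), ?_, ?_⟩
    · show σ.mapO i (d'.e i) * (d'.toNormalData.npow b).e i * tz i ^ p - 1 = _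
      rw [d'.toNormalData.e_npow]
      simp only [tz]
      rw [show σ.mapO i (d'.e i) * d'.e i ^ b * (σ.mapO i (t i) * t i ^ b) ^ p =
        (σ.mapO i (d'.e i) * σ.mapO i (t i) ^ p) * (d'.e i * t i ^ p) ^ b by ring, hσW, hW, hq]
      ring
    · have hap : (a : k) ^ p = (a : k) := by rw [← frobenius_def, map_natCast]
      simp only [map_add, map_mul, map_pow, RedBase.red_ι, σ.red_mapO hσ, hπθ, hρa, map_natCast,
        map_zero, zero_pow hp.ne_zero, zero_mul, add_zero]
      rw [← map_natCast (algebraMap k Fk) a, ← map_natCast (algebraMap k Fk) b, ← map_pow, hap,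
        hbk, map_neg, neg_mul, add_neg_cancel]
  choose E hEe hEr using hE
  choose l hl hlE using fun i => T.exists_dvd_of_red_eq_zero hπθ i (hEr i)
  obtain ⟨lam, hlam, -, hlaml⟩ := TwoRed.exists_common_finset Finset.univ l (fun j _ => hl j) hπθ
  have hprin : (Z : Divisor K F) ∈ Divisor.principal (K := K) (F := F) := by
    refine dzt.principal_of_close hp hpk hθ0 hθ hlam hyz tz
      (fun i => by rw [show dzt.c = dz.c from congrArg (·.c) hdzt]; exact htz i) htzr fun i => ?_
    rw [show dzt.e = dz.e from congrArg (·.e) hdzt, map_mul, map_pow, hEe i]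
    exact mul_dvd_mul_left _ ((map_dvd (T.R i).ι (hlaml i (Finset.mem_univ _))).trans (hlE i))
  have hz : σ.aut • Pic0.mk D + b • Pic0.mk D = 0 := by
    have h0 : Pic0.mk Z = 0 := (QuotientAddGroup.eq_zero_iff _).mpr
      (AddSubgroup.mem_addSubgroupOf.mpr hprin)
    rw [SemilinearAut.pic0_smul_mk, ← h0]
    refine (congrArg _ (map_nsmul (QuotientAddGroup.mk' _) b D).symm).trans ?_
    exact (map_add (QuotientAddGroup.mk' _) _ _).symm.trans
      (congrArg Pic0.mk (Subtype.ext (by rw [hZ]; rfl)))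
  have hpy : p • Pic0.mk D = 0 := by
    refine ((map_nsmul (QuotientAddGroup.mk' _) p D).symm.trans ?_)
    refine (QuotientAddGroup.eq_zero_iff _).mpr (AddSubgroup.mem_addSubgroupOf.mpr
      ⟨d'.f, d'.f_ne, fun P => ?_⟩)
    rw [AddSubgroup.coe_nsmul, Finsupp.smul_apply, nsmul_eq_mul, d'.div_f]
  have hab : a + b = a * p := by
    obtain ⟨q, rfl⟩ : ∃ q, p = q + 1 := ⟨p - 1, by have := hp.one_le; omega⟩
    rw [hb, Nat.add_sub_cancel]
    ring
  have h2 : a • Pic0.mk D + b • Pic0.mk D = 0 := by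
    rw [← add_smul, hab, mul_smul, hpy, smul_zero]
  exact add_right_cancel (hz.trans h2.symm)

end SemiRed

end Fermat.Agent.TwoComponent
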