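import Mathlib.FieldTheory.IsAlgClosed.AlgebraicClosure
import Mathlib.LinearAlgebra.Matrix.Charpoly.Coeff
import Mathlib.RingTheory.Trace.Defs
import Fermat.Agent.TwoComponent.NormFormula

/-!
# Traces and first order norms along a degeneracy map

If the degree on the Frobenius side is the residue characteristic, the trace of an integral function
reduces to its reduction on the isomorphic side.
-/

noncomputable section

open AlgebraicCurve Fermat.Agent.Red Matrix

namespace Fermat.Agent.TwoComponent

variable {K k F Fk : Type*} [Field K] [Field F] [Algebra K F] [Field k] [Field Fk] [Algebra k Fk]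
variable {A : ValuationSubring K} {π : A →+* k}
variable {S : Type*} [Fintype S]

namespace Degen

variable {T : TwoRed A π F Fk S} {FM : Type*} [Field FM] [Algebra K FM] (G : Degen T FM)

/-- The trace of a multiplication along an inseparable map of degree the characteristic. -/
theorem trace_mat_eq_zero (hq : G.q.Prime) (hqk : (G.q : k) = 0) (b : Fk) :
    (G.mat b).trace = 0 := by
  obtain ⟨c, hc⟩ := G.pow_mem b
  have hpow : ∀ n : ℕ, G.mat (b ^ n) = G.mat b ^ n := by
    intro n
    induction n with
    | zero => rw [pow_zero, pow_zero, ← map_one G.Fr, G.mat_Fr, map_one]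
    | succ n ih => rw [pow_succ, pow_succ, G.mat_mul, ih]
  have hMq : G.mat b ^ G.q = Matrix.scalar _ c := by rw [← hpow, ← hc, G.mat_Fr]
  let L := AlgebraicClosure Fk
  let ι : Fk →+* L := algebraMap Fk L
  obtain ⟨r, hr⟩ := IsAlgClosed.exists_pow_nat_eq (ι c) G.q_pos
  have hqL : (G.q : L) = 0 := by
    rw [← map_natCast ι, ← map_natCast (algebraMap k Fk), hqk, map_zero, map_zero]
  have : Fact G.q.Prime := ⟨hq⟩
  have : CharP L G.q := (CharP.charP_iff_prime_eq_zero hq).mpr hqL
  have : Nonempty (Fin G.q) := ⟨⟨0, G.q_pos⟩⟩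
  set M : Matrix (Fin G.q) (Fin G.q) L := (G.mat b).map ι with hM
  have hcomm : Commute M (Matrix.scalar (Fin G.q) r) :=
    (Matrix.scalar_commute r (fun r' => Commute.all r r') M).symm
  have hnil : IsNilpotent (M - Matrix.scalar (Fin G.q) r) := by
    refine ⟨G.q, ?_⟩
    rw [sub_pow_char_of_commute G.q hcomm, sub_eq_zero, ← map_pow (Matrix.scalar (Fin G.q)), hr, hM,
      ← RingHom.mapMatrix_apply, ← map_pow, hMq]
    ext i j
    simp [Matrix.scalar_apply, Matrix.diagonal, apply_ite ι]
  have h := (Matrix.isNilpotent_trace_of_isNilpotent hnil).eq_zero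
  rw [Matrix.trace_sub, Matrix.scalar_apply, Matrix.trace_diagonal, Finset.sum_const,
    Finset.card_univ, Fintype.card_fin, nsmul_eq_mul, hqL, zero_mul, sub_zero, hM] at h
  have h' := AddMonoidHom.map_trace ι.toAddMonoidHom (G.mat b)
  rw [RingHom.toAddMonoidHom_eq_coe, AddMonoidHom.coe_coe, h] at h'
  exact (map_eq_zero ι).mp h'

/-- Trace and first order norm of an integral function. -/
theorem exists_norm_expansion (hq : G.q.Prime) (hqk : (G.q : k) = 0) {Ω : F}
    (ua : (T.R G.side).O) (ub : (T.R (!G.side)).O) (ha : (ua : F) = Ω) (hb : (ub : F) = Ω) :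
    letI := algebraAlong G.φ
    ∃ tr : G.RM.O, (tr : FM) = Algebra.trace FM F Ω ∧ G.RM.red tr = (T.R G.side).red ua ∧
      ∀ lam : A, ∃ P : G.RM.O, Algebra.norm FM (1 + algebraMap K F (lam : K) * Ω) =
        ((1 + G.RM.ι lam * tr + G.RM.ι lam ^ 2 * P : G.RM.O) : FM) := by
  classical
  let := algebraAlong G.φ
  have := isScalarTower_along G.φ
  obtain ⟨B, -, -⟩ := G.exists_frame 1 1 one_ne_zero one_ne_zero
  have hcard : Fintype.card (Unit ⊕ Fin G.q) = Module.finrank FM F := by
    rw [show Module.finrank FM F = finrankAlong K G.φ from rfl, G.finrank_eq, Fintype.card_sum,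
      Fintype.card_unit, Fintype.card_fin, add_comm]
  let bas : Module.Basis (Unit ⊕ Fin G.q) FM F :=
    basisOfLinearIndependentOfCardEqFinrank B.linearIndependent hcard
  have hbas : ∀ j, bas j = B.b j := fun j => by simp [bas]
  set M := Algebra.leftMulMatrix bas Ω with hMdef
  have hM : ∀ j, ∑ l, G.φ (M l j) * B.b l = Ω * B.b j := fun j => by
    have := bas.sum_repr (Ω * bas j)
    simp only [Algebra.smul_def, hbas] at this
    simp only [hMdef, Algebra.leftMulMatrix_eq_repr_mul, hbas]
    exact this
  have hint : ∀ l j, M l j ∈ G.RM.O := fun l j =>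
    B.coeff_integral (μ := fun l => M l j) (fun i => by
    rw [hM]
    have h2 : i = G.side ∨ i = !G.side := by cases i <;> cases G.side <;> simp
    rcases h2 with rfl | rfl
    · rw [← ha, ← B.coe_s j]
      exact mul_mem ua.2 (B.s j).2
    · rw [← hb, ← B.coe_o j]
      exact mul_mem ub.2 (B.o j).2) l
  let M' : Matrix (Unit ⊕ Fin G.q) (Unit ⊕ Fin G.q) G.RM.O := fun l j => ⟨M l j, hint l j⟩
  have hMM : M = M'.map G.RM.O.subtype := rfl
  -- the reduced matrix
  have hs : ∀ j, (T.R G.side).red ua * (T.R G.side).red (B.s j) =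
      G.RM.red (M' (Sum.inl ()) j) := fun j => by
    have e : ua * B.s j = ∑ l, G.pullO G.side (M' l j) * B.s l := Subtype.ext (by
      rw [Subring.coe_mul, ha, B.coe_s, ← hM, AddSubmonoidClass.coe_finsetSum]
      exact Finset.sum_congr rfl fun l _ => by rw [Subring.coe_mul, B.coe_s]; rfl)
    have := congrArg (T.R G.side).red e
    rw [map_mul, map_sum, Fintype.sum_sum_type, Fintype.sum_unique] at this
    simp only [map_mul, G.red_pullO_side, B.red_s_inl, B.red_s_inr, mul_one, mul_zero,
      Finset.sum_const_zero, add_zero] at this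
    exact this
  have ho : ∀ j, (fun l => G.RM.red (M' (Sum.inr l) j)) =
      G.coord ((T.R (!G.side)).red ub * (T.R (!G.side)).red (B.o j)) := fun j => by
    refine G.coord_unique ?_
    have e : ub * B.o j = ∑ l, G.pullO (!G.side) (M' l j) * B.o l := Subtype.ext (by
      rw [Subring.coe_mul, hb, B.coe_o, ← hM, AddSubmonoidClass.coe_finsetSum]
      exact Finset.sum_congr rfl fun l _ => by rw [Subring.coe_mul, B.coe_o]; rfl)
    have := congrArg (T.R (!G.side)).red e
    rw [map_mul, map_sum, Fintype.sum_sum_type, Fintype.sum_unique] at this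
    simp only [map_mul, G.red_pullO_other, B.red_o_inl, B.red_o_inr, mul_zero, zero_add] at this
    exact this
  refine ⟨M'.trace, ?_, ?_, fun lam => ?_⟩
  · rw [Algebra.trace_eq_matrix_trace bas, ← hMdef, hMM]
    exact AddMonoidHom.map_trace G.RM.O.subtype.toAddMonoidHom M'
  · have hd : ∀ l, G.RM.red (M' (Sum.inr l) (Sum.inr l)) =
        G.mat ((T.R (!G.side)).red ub) l l := fun l => by
      have := congrFun (ho (Sum.inr l)) l
      rw [B.red_o_inr] at this
      exact this
    rw [Matrix.trace, map_sum, Fintype.sum_sum_type, Fintype.sum_unique]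
    simp only [Matrix.diag_apply, hd]
    rw [show ∑ l, G.mat ((T.R (!G.side)).red ub) l l = (G.mat ((T.R (!G.side)).red ub)).trace from
      rfl, G.trace_mat_eq_zero hq hqk, add_zero]
    have := hs (Sum.inl ())
    rw [B.red_s_inl, mul_one] at this
    exact this.symm
  · refine ⟨((1 + (Polynomial.X : Polynomial G.RM.O) • M'.map Polynomial.C).det.divX.divX).eval
      (G.RM.ι lam), ?_⟩
    have he : Algebra.leftMulMatrix bas (1 + algebraMap K F (lam : K) * Ω) =
        (1 + G.RM.ι lam • M').map G.RM.O.subtype := by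
      rw [map_add, map_one, map_mul, IsScalarTower.algebraMap_apply K FM F, AlgHom.commutes,
        ← hMdef, hMM, ← Algebra.smul_def]
      ext l j
      simp [Matrix.one_apply, apply_ite]
      exact Algebra.smul_def _ _
    rw [Algebra.norm_eq_matrix_det bas, he, ← RingHom.mapMatrix_apply, ← RingHom.map_det,
      Matrix.det_one_add_smul]
    show ((1 + _ + _ : G.RM.O) : FM) = _
    congr 1
    ring

end Degen

end Fermat.Agent.TwoComponent
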