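import Fermat.Agent.TwoComponent.Depth.Side

/-!
# Classes killed by both pushforwards are congruent to `1` modulo `θ ^ p`

Each step multiplies the depth by a fixed element of the maximal ideal: the exact roots of the two
sides differ by a section which, up to a deeper error, splits into parts deep on one side; the
obstruction to this would be a glued pair of `p`-th powers.
-/

noncomputable section

open AlgebraicCurve Fermat.Agent.Red

namespace Fermat.Agent.TwoComponent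

variable {K k F Fk : Type*} [Field K] [Field F] [Algebra K F] [Field k] [Field Fk] [Algebra k Fk]
variable {A : ValuationSubring K} {π : A →+* k}
variable {S : Type*} [Fintype S] {T : TwoRed A π F Fk S}

/-- If `e t^p` is close to `(1 + δ a)^p`, then `t (1 - δ a)` is an approximate `p`-th root of `e⁻¹`
of the same precision. -/
theorem exists_root_estimate {R : Type*} [CommRing R] {p : ℕ} (hp : p.Prime)
    {e t a δ θ' γ : R} (hpδ : (p : R) = -(δ ^ (p - 1) * θ' ^ (p - 1))) (hγ : γ ∣ δ)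
    (h : δ ^ p * γ ∣ e * t ^ p - (1 + δ * a) ^ p) :
    δ ^ p * γ ∣ e * (t * (1 - δ * a)) ^ p - 1 := by
  obtain ⟨H, hH⟩ := exists_shift hp (e := (1 : R)) (t := 1) (η := δ) (g := 0)
    (by rw [one_mul, one_pow, sub_self, mul_zero]) hpδ (-(δ * a ^ 2))
  have he : e * (t * (1 - δ * a)) ^ p - 1 = (e * t ^ p - (1 + δ * a) ^ p) * (1 - δ * a) ^ p +
      (1 * (1 + δ * -(δ * a ^ 2)) ^ p - 1) := by
    rw [one_mul, mul_pow, show 1 + δ * -(δ * a ^ 2) = (1 + δ * a) * (1 - δ * a) by ring, mul_pow]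
    ring
  rw [he, hH]
  refine dvd_add (Dvd.dvd.mul_right h _) (mul_dvd_mul_left _ (hγ.trans ?_))
  have hd : δ ∣ -(δ * a ^ 2) := Dvd.dvd.neg_right (dvd_mul_right _ _)
  refine dvd_sub (dvd_add (dvd_zero _) (Dvd.dvd.mul_left (dvd_pow hd hp.ne_zero) _))
    (Dvd.dvd.mul_left (dvd_add (Dvd.dvd.mul_left hd _) ?_) _)
  exact Dvd.dvd.mul_right (Dvd.dvd.mul_left (dvd_pow hd two_ne_zero) _) _

namespace TwoRed.TrivialData

variable {p : ℕ} {D : Divisor K F} (d : T.TrivialData p D)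

/-- One step of the iteration: exact roots on the two sides, whose difference is split by sides,
give closeness modulo a deeper scalar `δ κ`. -/
theorem close_step (hp : p.Prime) (hpk : (p : k) = 0) {θ : A} (hθ0 : θ ≠ 0)
    (hθ : θ ^ (p - 1) = -(p : A)) {δ θ' : A} (hθδ : θ = δ * θ') (hδ : π δ = 0)
    {γ : A} {κ θ'' r : A} (hκθ : θ' = κ * θ'') (hκγ : γ = κ ^ p * r)
    {n1 : ℕ} (hn1 : d.N ≤ n1) {Uf : F} (hUf : Uf ∈ riemannRochSpace (D + n1 • T.G))
    (tf : ∀ i, (T.R i).O) (htf : ∀ i, algebraMap K F (d.c i) * (tf i : F) = Uf)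
    (htfr : ∀ i, (T.R i).red (tf i) = 1)
    (ev' : ∀ i, (T.R i).O)
    (hrootf : (T.R false).ι (δ ^ p * γ) ∣ d.e false * tf false ^ p - 1)
    (hroott : (T.R true).ι (δ ^ p * γ) ∣
      d.e true * (tf true + (T.R true).ι δ * ev' true) ^ p - 1)
    {l : F} (hl : l ∈ riemannRochSpace (D + n1 • T.G)) (lv c : ∀ i, (T.R i).O) (μ : A)
    (hlv : ∀ i, algebraMap K F (d.c i) * (lv i : F) = l)
    (hlf : (T.R false).ι γ ∣ lv false)
    (hlt : (T.R true).ι γ ∣ ev' true - lv true - (T.R true).ι μ * c true)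
    (hμ : μ ≠ 0 → (fun i : Bool => if i then (T.R true).red (c true) else 0) ∉
      T.glued (fun i => n1 • T.Gk i) 1) :
    d.Close (δ * κ) := by
  have : Fact p.Prime := ⟨hp⟩
  have : CharP k p := (CharP.charP_iff_prime_eq_zero hp).mpr hpk
  have hδ0 : δ ≠ 0 := fun h => hθ0 (by rw [hθδ, h, zero_mul])
  have hκ0 : κ ≠ 0 := fun h => hθ0 (by rw [hθδ, hκθ, h, zero_mul, mul_zero])
  have hp1 : p - 1 ≠ 0 := by have := hp.two_le; omega
  have hpι : ∀ (i : Bool) (η θ₁ : A), θ = η * θ₁ → ((p : ℕ) : (T.R i).O) =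
      -((T.R i).ι η ^ (p - 1) * (T.R i).ι θ₁ ^ (p - 1)) := fun i η θ₁ h => by
    rw [← mul_pow, ← map_mul, ← h, ← map_pow, hθ, map_neg, map_natCast, neg_neg]
  -- the new section
  set U' : F := Uf + algebraMap K F (δ : K) * l with hU'
  have hU'mem : U' ∈ riemannRochSpace (D + n1 • T.G) := by
    rw [hU', ← Algebra.smul_def]
    exact add_mem hUf (Submodule.smul_mem _ _ hl)
  let t' : ∀ i, (T.R i).O := fun i => tf i + (T.R i).ι δ * lv i
  have ht' : ∀ i, algebraMap K F (d.c i) * (t' i : F) = U' := fun i => by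
    rw [hU', ← htf i, ← hlv i, Subring.coe_add, Subring.coe_mul, RedBase.coe_ι]
    ring
  have htr' : ∀ i, (T.R i).red (t' i) = 1 := fun i => by
    simp [t', hδ, htfr]
  obtain ⟨gf, hgf⟩ := hrootf
  obtain ⟨gt, hgt⟩ := hroott
  obtain ⟨z1, hz1⟩ := hlf
  obtain ⟨z2, hz2⟩ := hlt
  rw [map_mul, map_pow] at hgf hgt
  have hxt : t' true = (tf true + (T.R true).ι δ * ev' true) +
      (T.R true).ι δ * (-((T.R true).ι μ * c true) - (T.R true).ι γ * z2) := by
    simp only [t']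
    linear_combination (-(T.R true).ι δ) * hz2
  rcases T.dvd_or_shallower κ μ with ⟨s, hs⟩ | ⟨m, hm, hκm⟩
  · -- no obstruction
    have hηθ : θ = δ * κ * θ'' := by rw [hθδ, hκθ, mul_assoc]
    refine d.close_of_root hp hpk hθ0 hθ hηθ (by rw [map_mul, hδ, zero_mul]) hn1 hU'mem t' ht'
      htr' fun i => ?_
    -- the general step
    have key : ∀ (i : Bool) (r₀ g x y : (T.R i).O),
        d.e i * r₀ ^ p - 1 = (T.R i).ι δ ^ p * ((T.R i).ι γ * g) → x = (T.R i).ι κ * y →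
        (T.R i).ι ((δ * κ) ^ p) ∣ d.e i * (r₀ + (T.R i).ι δ * x) ^ p - 1 := by
      intro i r₀ g x y h hx
      obtain ⟨H, hH⟩ := exists_shift hp (η := (T.R i).ι δ * (T.R i).ι κ)
        (g := (T.R i).ι r * g) (θ' := (T.R i).ι θ'')
        (by rw [h, hκγ, map_mul, map_pow, mul_pow]; ring)
        (by rw [← map_mul]; exact hpι i _ _ hηθ) y
      rw [hx, show r₀ + (T.R i).ι δ * ((T.R i).ι κ * y) = r₀ + (T.R i).ι δ * (T.R i).ι κ * y by
        ring, hH, map_pow, map_mul]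
      exact dvd_mul_right _ _
    cases i
    · obtain ⟨κ', hκ'⟩ : κ ∣ γ := hκγ ▸ (dvd_pow_self κ hp.ne_zero).mul_right r
      exact key false (tf false) gf (lv false) ((T.R false).ι κ' * z1)
        (by rw [hgf]; ring) (by rw [hz1, hκ', map_mul]; ring)
    · obtain ⟨κ', hκ'⟩ : κ ∣ γ := hκγ ▸ (dvd_pow_self κ hp.ne_zero).mul_right r
      rw [hxt]
      exact key true _ gt _ (-((T.R true).ι s * c true) - (T.R true).ι κ' * z2)
        (by rw [hgt]; ring) (by rw [hs, hκ', map_mul, map_mul]; ring)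
  · -- the obstruction is a glued pair of `p`-th powers
    exfalso
    have hμ0 : μ ≠ 0 := fun h => hκ0 (by rw [hκm, h, zero_mul])
    refine hμ hμ0 ?_
    have hηθ : θ = δ * μ * (m * θ'') := by rw [hθδ, hκθ, hκm]; ring
    obtain ⟨γ', hγ', hπγ'⟩ : ∃ γ' : A, γ = μ * γ' ∧ π γ' = 0 := by
      refine ⟨κ ^ (p - 1) * r * m, ?_, by rw [map_mul, hm, mul_zero]⟩
      rw [hκγ, show μ * (κ ^ (p - 1) * r * m) = κ ^ (p - 1) * (μ * m) * r by ring, ← hκm,
        ← pow_succ, Nat.sub_add_cancel hp.one_le]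
    have key : ∀ (i : Bool) (r₀ g x y : (T.R i).O),
        d.e i * r₀ ^ p - 1 = (T.R i).ι δ ^ p * ((T.R i).ι γ * g) → x = (T.R i).ι μ * y →
        ∃ E' : (T.R i).O, d.e i * (r₀ + (T.R i).ι δ * x) ^ p - 1 =
            (T.R i).ι ((δ * μ) ^ p) * E' ∧ (T.R i).red E' = (T.R i).red y ^ p := by
      intro i r₀ g x y h hx
      obtain ⟨H, hH⟩ := exists_shift hp (η := (T.R i).ι δ * (T.R i).ι μ)
        (g := (T.R i).ι (m ^ p * r) * g) (θ' := (T.R i).ι (m * θ''))
        (by rw [h, hκγ, hκm]; simp only [map_mul, map_pow, mul_pow]; ring)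
        (by rw [← map_mul]; exact hpι i _ _ hηθ) y
      refine ⟨(T.R i).ι (m ^ p * r) * g + d.e i * y ^ p - (T.R i).ι (m * θ'') ^ (p - 1) * d.e i *
        (r₀ ^ (p - 1) * y + (T.R i).ι δ * (T.R i).ι μ * y ^ 2 * H), ?_, ?_⟩
      · rw [hx, map_pow, map_mul, show r₀ + (T.R i).ι δ * ((T.R i).ι μ * y) =
          r₀ + (T.R i).ι δ * (T.R i).ι μ * y by ring]
        exact hH
      · simp [hm, d.red_e, zero_pow hp.ne_zero, zero_pow hp1]
    obtain ⟨Ef, hEf, hEfr⟩ := key false (tf false) gf (lv false) ((T.R false).ι γ' * z1)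
      (by rw [hgf]; ring) (by rw [hz1, hγ', map_mul]; ring)
    obtain ⟨Et, hEt, hEtr⟩ := key true _ gt _ (-(c true) - (T.R true).ι γ' * z2)
      (by rw [hgt]; ring) (show -((T.R true).ι μ * c true) - (T.R true).ι γ * z2 = _ by
        rw [hγ', map_mul]; ring)
    rw [← hxt] at hEt
    let Ee : ∀ i, (T.R i).O := fun i => match i with | false => Ef | true => Et
    have hpair := d.glued_of_divided hp hU'mem t' ht'
      (pow_ne_zero p (mul_ne_zero hδ0 hμ0)) Ee fun i => by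
        cases i
        · exact hEf
        · exact hEt
    have hredE : ∀ i : Bool, (T.R i).red (Ee i) =
        ((fun i : Bool => -(if i then (T.R true).red (c true) else 0)) i) ^ p := fun i => by
      cases i
      · show (T.R false).red Ef = _
        simp [hEfr, hπγ', zero_pow hp.ne_zero]
      · show (T.R true).red Et = _
        simp [hEtr, hπγ']
    simp only [hredE] at hpair
    have := neg_mem (T.glued_of_pow_mem hp hpk hpair)
    have e : -(fun i : Bool => -(if i then (T.R true).red (c true) else 0)) =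
        fun i : Bool => if i then (T.R true).red (c true) else 0 := funext fun i => neg_neg _
    rwa [e] at this

/-- **The depth of a class killed by both pushforwards.** -/
theorem close_theta [IsAlgClosed K] (hp : p.Prime) (hpk : (p : k) = 0) {θ : A} (hθ0 : θ ≠ 0)
    (hθ : θ ^ (p - 1) = -(p : A))
    {F₀ F₁ : Type*} [Field F₀] [Algebra K F₀] [Field F₁] [Algebra K F₁]
    (G₀ : Degen T F₀) (G₁ : Degen T F₁) (hs₀ : G₀.side = false) (hs₁ : G₁.side = true)
    (hq₀ : G₀.q = p) (hq₁ : G₁.q = p)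
    (hc₀ : ∀ h : F₀, (∀ v : Place K F₀, 0 ≤ v.ord h) → ∃ c : K, h = algebraMap K F₀ c)
    (hc₁ : ∀ h : F₁, (∀ v : Place K F₁, 0 ≤ v.ord h) → ∃ c : K, h = algebraMap K F₁ c)
    (hi₀ : G₀.φ.toRingHom.IsIntegral) (hi₁ : G₁.φ.toRingHom.IsIntegral)
    (hf₀ : FiniteAlong K G₀.φ) (hf₁ : FiniteAlong K G₁.φ)
    (hn₀ : NormFormulaAlong K G₀.φ hf₀) (hn₁ : NormFormulaAlong K G₁.φ hf₁)
    (hb₀ : G₀.BoundedPull hi₀) (hb₁ : G₁.BoundedPull hi₁)
    (hD₀ : Divisor.pushforwardAlong G₀.φ hi₀ D ∈ Divisor.principal (K := K) (F := F₀))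
    (hD₁ : Divisor.pushforwardAlong G₁.φ hi₁ D ∈ Divisor.principal (K := K) (F := F₁)) :
    d.Close θ := by
  classical
  have hπθ := TwoRed.pi_theta (π := π) hpk hθ
  obtain ⟨n₀, μ₀, hμ₀, -, hroot₀⟩ :=
    G₀.exists_side_root hc₀ hi₀ hf₀ hn₀ hp hpk hq₀ hb₀ hθ0 hθ d hD₀
  obtain ⟨n₁, μ₁, hμ₁, -, hroot₁⟩ :=
    G₁.exists_side_root hc₁ hi₁ hf₁ hn₁ hp hpk hq₁ hb₁ hθ0 hθ d hD₁
  set n1 := d.N + (n₀ + n₁) with hn1
  obtain ⟨γ₃, hγ₃, -, hsplit⟩ := d.exists_side_split (n := n1) (by omega) hπθ hθ0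
  -- the starting point
  obtain ⟨U, hU, hUt⟩ : ∃ u ∈ riemannRochSpace (D + d.N • T.G), ∀ i, ∃ v : (T.R i).O,
      algebraMap K F (d.c i) * (v : F) = u ∧ (T.R i).red v = 1 := by
    have := T.one_mem_glued d.N
    rw [← d.image_eq d.N le_rfl] at this
    exact this
  choose t ht htr using hUt
  choose a ha hat using fun i => T.exists_dvd_of_red_eq_zero hπθ i
    (v := d.e i * t i ^ p - 1)
    (by rw [map_sub, map_mul, map_pow, map_one, d.red_e, htr, one_pow, one_mul, sub_self])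
  obtain ⟨c₀, hc₀', hc₀θ, hc₀a⟩ := TwoRed.exists_common_finset Finset.univ a (fun j _ => ha j) hπθ
  obtain ⟨δ₀, hδ₀, hπδ₀⟩ := TwoRed.exists_root_A hp.pos c₀ hc₀'
  -- the uniform gain
  obtain ⟨g₁, hg₁, hg₁μ, hg₁a⟩ := TwoRed.exists_common_finset Finset.univ
    (fun i : Fin 3 => ![μ₁, γ₃, δ₀] i)
    (fun i _ => by fin_cases i <;> simpa using ‹_›) hμ₀
  have hgμ₁ : g₁ ∣ μ₁ := hg₁a 0 (Finset.mem_univ _)
  have hgγ₃ : g₁ ∣ γ₃ := hg₁a 1 (Finset.mem_univ _)
  have hgδ₀ : g₁ ∣ δ₀ := hg₁a 2 (Finset.mem_univ _)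
  obtain ⟨ν, hν, hπν⟩ := TwoRed.exists_root_A hp.pos g₁ hg₁
  -- iterate
  have hiter : ∀ j : ℕ, d.Close θ ∨ ∃ θ' : A, θ = δ₀ * ν ^ j * θ' ∧ d.Close (δ₀ * ν ^ j) := by
    intro j
    induction j with
    | zero =>
      right
      obtain ⟨θ', hθ'⟩ : δ₀ ∣ θ := (dvd_pow_self δ₀ hp.ne_zero).trans (hδ₀ ▸ hc₀θ)
      refine ⟨θ', by rw [pow_zero, mul_one, hθ'], ?_⟩
      rw [pow_zero, mul_one]
      exact ⟨U, hU, t, ht, htr, fun i => by
        rw [hδ₀]; exact (map_dvd (T.R i).ι (hc₀a i (Finset.mem_univ _))).trans (hat i)⟩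
    | succ j ih =>
      rcases ih with h | ⟨θ', hθ', U, hU, t, ht, htr, hclose⟩
      · exact Or.inl h
      set δ := δ₀ * ν ^ j with hδ
      have hπδ : π δ = 0 := by rw [hδ, map_mul, hπδ₀, zero_mul]
      have hgδ : g₁ ∣ δ := hgδ₀.trans (dvd_mul_right _ _)
      obtain ⟨a₀, ha₀, ha₀mem, hr₀⟩ :=
        hroot₀ δ θ' hθ' hπδ g₁ hg₁μ hgδ U hU t ht htr hclose
      obtain ⟨a₁, ha₁, ha₁mem, hr₁⟩ :=
        hroot₁ δ θ' hθ' hπδ g₁ hgμ₁ hgδ U hU t ht htr hclose
      have hr₀' : (T.R false).ι (δ ^ p * g₁) ∣ d.e false * t false ^ p -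
          (1 + (T.R false).ι δ * a₀ false) ^ p := by
        rw [← hs₀]; exact hr₀
      have hr₁' : (T.R true).ι (δ ^ p * g₁) ∣ d.e true * t true ^ p -
          (1 + (T.R true).ι δ * a₁ true) ^ p := by
        rw [← hs₁]; exact hr₁
      have hest : ∀ (i : Bool) (a : (T.R i).O),
          (T.R i).ι (δ ^ p * g₁) ∣ d.e i * t i ^ p - (1 + (T.R i).ι δ * a) ^ p →
          (T.R i).ι (δ ^ p * g₁) ∣ d.e i * (t i * (1 - (T.R i).ι δ * a)) ^ p - 1 := fun i a h => by
        rw [map_mul, map_pow] at h ⊢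
        exact exists_root_estimate hp (θ' := (T.R i).ι θ') (by
          rw [← mul_pow, ← map_mul, ← hθ', ← map_pow, hθ, map_neg, map_natCast, neg_neg])
          (map_dvd _ hgδ) h
      -- the two roots
      let tf : ∀ i, (T.R i).O := fun i => t i * (1 - (T.R i).ι δ * a₀ i)
      let ev' : ∀ i, (T.R i).O := fun i => t i * (a₀ i - a₁ i)
      have hUf : U * (1 - algebraMap K F (δ : K) * (a₀ false : F)) ∈
          riemannRochSpace (D + n1 • T.G) := by
        refine T.space_nsmul_mono (show d.N + n₀ ≤ n1 by omega) D (T.mem_space_mul hU ?_)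
        refine sub_mem (T.one_mem_space _) ?_
        rw [← Algebra.smul_def]
        exact Submodule.smul_mem _ _ ha₀mem
      have hE : U * ((a₀ false : F) - (a₁ false : F)) ∈ riemannRochSpace (D + n1 • T.G) := by
        refine T.mem_space_mul hU (sub_mem ?_ ?_)
        · simpa using T.space_nsmul_mono (show n₀ ≤ n₀ + n₁ by omega) 0 (by simpa using ha₀mem)
        · simpa using T.space_nsmul_mono (show n₁ ≤ n₀ + n₁ by omega) 0 (by simpa using ha₁mem)
      have htf : ∀ i, algebraMap K F (d.c i) * (tf i : F) =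
          U * (1 - algebraMap K F (δ : K) * (a₀ false : F)) := fun i => by
        rw [← ht i, Subring.coe_mul, AddSubgroupClass.coe_sub, Subring.coe_one, Subring.coe_mul,
          RedBase.coe_ι, ha₀ i false, mul_assoc]
      have hev : ∀ i, algebraMap K F (d.c i) * (ev' i : F) =
          U * ((a₀ false : F) - (a₁ false : F)) := fun i => by
        rw [← ht i, Subring.coe_mul, AddSubgroupClass.coe_sub, ha₀ i false, ha₁ i false, mul_assoc]
      obtain ⟨l, hl, lv, c, μ, hlv, hlf, hlt, hμ⟩ := hsplit _ hE ev' hev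
      have hroott : (T.R true).ι (δ ^ p * g₁) ∣
          d.e true * (tf true + (T.R true).ι δ * ev' true) ^ p - 1 := by
        rw [show tf true + (T.R true).ι δ * ev' true =
          t true * (1 - (T.R true).ι δ * a₁ true) by simp only [tf, ev']; ring]
        exact hest true _ hr₁'
      have hstep : ∀ κ θ'' r : A, θ' = κ * θ'' → g₁ = κ ^ p * r → d.Close (δ * κ) :=
        fun κ θ'' r h1 h2 => d.close_step hp hpk hθ0 hθ hθ' hπδ h1 h2 (by omega) hUf tf htf
          (fun i => by simp [tf, htr, hπδ]) ev' (hest false _ hr₀') hroott hl lv c μ hlv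
          ((map_dvd _ hgγ₃).trans hlf) ((map_dvd _ hgγ₃).trans hlt) hμ
      rcases T.dvd_or_shallower ν θ' with ⟨θ'', hθ''⟩ | ⟨m, -, hνm⟩
      · right
        refine ⟨θ'', by rw [hθ', hθ'', hδ, pow_succ]; ring, ?_⟩
        rw [pow_succ, ← mul_assoc]
        exact hstep ν θ'' 1 hθ'' (by rw [mul_one, hν])
      · left
        rw [hθ']
        exact hstep θ' 1 (m ^ p) (mul_one _).symm (by rw [← hν, hνm, mul_pow])
  -- the iteration stops
  obtain ⟨M, cc, hM⟩ := T.arch ν θ hπν hθ0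
  rcases hiter (M + 1) with h | ⟨θ', hθ', -⟩
  · exact h
  exfalso
  have hone : δ₀ * ν * cc * θ' = 1 := by
    refine mul_left_cancel₀ hθ0 ?_
    rw [mul_one]
    conv_rhs => rw [hθ', pow_succ, hM]
    ring
  have := congrArg π hone
  rw [map_mul, map_mul, map_mul, hπδ₀, map_one, zero_mul, zero_mul, zero_mul] at this
  exact zero_ne_one this

end TwoRed.TrivialData

end Fermat.Agent.TwoComponent
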